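import Fermat.Agent.RT.Two.Recip.Transfer

/-!
# Quadratic characters of a stabiliser and the transfer of products with a rational entry
-/

set_option autoImplicit false

noncomputable section

namespace Fermat.Agent.RT.Two.Recip

open Fermat.Agent.Arith MulAction

variable {F : Type*} [Field F] {X : Type*} [Fintype X] [MulAction GQ X] {x₀ : X}

omit [Fintype X] in
/-- The stabiliser of a point of a finite action contains the fixing subgroup of a finite Galois
level. -/
theorem exists_galois_level (hX : IsFiniteAction X) {χ : GQ → F} (hχ : χ ∈ finLvl) :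
    ∃ L : IntermediateField ℚ QBar, FiniteDimensional ℚ L ∧ Normal ℚ L ∧
      ∀ u ∈ L.fixingSubgroup, u • x₀ = x₀ ∧ ∀ g, χ (g * u) = χ g := by
  obtain ⟨U, -, hUo, hfix⟩ := hX
  obtain ⟨V, -, hVo, hχ⟩ := mem_finLvl.1 hχ
  have hnhds : ((U ⊓ V : Subgroup GQ) : Set GQ) ∈ nhds (1 : GQ) :=
    (hUo.inter hVo).mem_nhds (U ⊓ V).one_mem
  obtain ⟨E, hE, hEsub⟩ := (krullTopology_mem_nhds_one_iff ℚ QBar _).1 hnhds
  have := hE
  set L := IntermediateField.normalClosure ℚ E QBar
  refine ⟨L, normalClosure.is_finiteDimensional ℚ _ QBar, normalClosure.normal ℚ _ QBar,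
    fun u hu => ?_⟩
  have := hEsub (IntermediateField.fixingSubgroup_antitone E.le_normalClosure hu)
  exact ⟨hfix u this.1 x₀, fun g => hχ g u this.2⟩

omit [Fintype X] in
/-- **Kummer theory for quadratic characters of the stabiliser.** -/
theorem exists_phi_eq [CharP F 2] (hX : IsFiniteAction X) {χ : GQ → F} (hχ : χ ∈ finLvl)
    (h01 : ∀ g, g • x₀ = x₀ → χ g = 0 ∨ χ g = 1)
    (hhom : ∀ g h : GQ, g • x₀ = x₀ → h • x₀ = x₀ → χ (g * h) = χ g + χ h) :
    ∃ a : QBar, a ≠ 0 ∧ (∀ g : GQ, g • x₀ = x₀ → g a = a) ∧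
      ∀ g : GQ, g • x₀ = x₀ → χ g = phi a g := by
  classical
  obtain ⟨L, hL, hLn, hlev⟩ := exists_galois_level (x₀ := x₀) hX hχ
  have := hL
  have := hLn
  let res : GQ →* (L ≃ₐ[ℚ] L) := AlgEquiv.restrictNormalHom (F := ℚ) (K₁ := QBar) L
  have hres : ∀ g g' : GQ, res g = res g' → g • x₀ = x₀ → g' • x₀ = x₀ ∧ χ g' = χ g := by
    intro g g' h hg
    have hu : g⁻¹ * g' ∈ L.fixingSubgroup := by
      refine (IntermediateField.mem_fixingSubgroup_iff L _).2 fun y hy => ?_
      have e : g y = g' y := by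
        rw [show y = algebraMap L QBar ⟨y, hy⟩ from rfl, ← AlgEquiv.restrictNormal_commutes g L,
          ← AlgEquiv.restrictNormal_commutes g' L,
          show g.restrictNormal L = g'.restrictNormal L from h]
      rw [AlgEquiv.mul_apply, ← e]
      exact g.symm_apply_apply y
    obtain ⟨h1, h2⟩ := hlev _ hu
    refine ⟨?_, ?_⟩
    · rw [← mul_inv_cancel_left g g', mul_smul, h1, hg]
    · rw [← h2 g, mul_inv_cancel_left]
  let sgn : GQ → L := fun g => if χ g = 0 then 1 else -1
  let c : (L ≃ₐ[ℚ] L) → L := fun u =>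
    if h : ∃ g : GQ, g • x₀ = x₀ ∧ res g = u then sgn h.choose else 0
  have hc : ∀ g : GQ, g • x₀ = x₀ → c (res g) = sgn g := by
    intro g hg
    have h : ∃ g' : GQ, g' • x₀ = x₀ ∧ res g' = res g := ⟨g, hg, rfl⟩
    simp only [c, dif_pos h, sgn, (hres _ _ h.choose_spec.2.symm hg).2]
  have hχ1 : χ 1 = 0 := by
    have := hhom 1 1 (one_smul _ _) (one_smul _ _)
    rw [mul_one] at this
    simpa [CharTwo.add_self_eq_zero] using this
  obtain ⟨θ, hθ⟩ : ∃ θ : L, ∑ u : L ≃ₐ[ℚ] L, c u * u θ ≠ 0 := by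
    by_contra hne
    push Not at hne
    have hli := (linearIndependent_monoidHom L L).comp
      (fun u : L ≃ₐ[ℚ] L => (u.toAlgHom.toRingHom.toMonoidHom : L →* L)) fun u u' h =>
        AlgEquiv.ext fun z => DFunLike.congr_fun h z
    have := Fintype.linearIndependent_iff.1 hli c (funext fun z => by
      rw [Finset.sum_apply]; simpa using hne z) 1
    rw [show (1 : L ≃ₐ[ℚ] L) = res 1 from (map_one res).symm, hc 1 (one_smul _ _)] at this
    simp [sgn, hχ1] at this
  set α : L := ∑ u : L ≃ₐ[ℚ] L, c u * u θ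
  have hmove : ∀ g : GQ, g • x₀ = x₀ → res g α = sgn g * α := by
    intro g hg
    simp only [α, map_sum, map_mul, Finset.mul_sum]
    rw [← Equiv.sum_comp (Equiv.mulLeft (res g)) (fun u => sgn g * (c u * u θ))]
    refine Finset.sum_congr rfl fun u _ => ?_
    have hsc : res g (c u) = c u := by
      simp only [c, sgn]
      split_ifs <;> simp
    rw [hsc, Equiv.coe_mulLeft, AlgEquiv.mul_apply, ← mul_assoc]
    congr 1
    by_cases hu : ∃ g' : GQ, g' • x₀ = x₀ ∧ res g' = u
    · obtain ⟨g', hg', rfl⟩ := hu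
      simp only []
      rw [hc g' hg', ← map_mul, hc _ (by rw [mul_smul, hg', hg])]
      simp only [sgn, hhom g g' hg hg']
      rcases h01 g hg with h | h <;> rcases h01 g' hg' with h' | h' <;>
        simp [h, h', CharTwo.add_self_eq_zero]
    · rw [show c u = 0 from dif_neg hu, show c (res g * u) = 0 from dif_neg ?_, mul_zero]
      rintro ⟨g', hg', h⟩
      exact hu ⟨g⁻¹ * g', by rw [mul_smul, hg', inv_smul_eq_iff, hg], by
        rw [map_mul, map_inv, h, inv_mul_cancel_left]⟩
  have happ : ∀ g : GQ, g • x₀ = x₀ →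
      g (α : QBar) = if χ g = 0 then (α : QBar) else -(α : QBar) := by
    intro g hg
    rw [show (α : QBar) = algebraMap L QBar α from rfl, ← AlgEquiv.restrictNormal_commutes g L α,
      show g.restrictNormal L α = res g α from rfl, hmove g hg]
    simp only [sgn]
    split_ifs <;> simp
  have hα : (α : QBar) ≠ 0 := fun h => hθ (by exact_mod_cast h)
  refine ⟨(α : QBar) ^ 2, pow_ne_zero 2 hα, fun g hg => ?_, fun g hg => ?_⟩
  · rw [map_pow, happ g hg]
    split_ifs <;> simp
  · rw [phi_eq_flip rfl]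
    rcases h01 g hg with h | h
    · rw [h, flip_eq_zero (by rw [happ g hg, if_pos h])]
    · rw [h, flip_eq_one (by rw [happ g hg, if_neg (by rw [h]; exact one_ne_zero)]
                             exact neg_ne_self hα)]

open scoped Classical in
theorem flip_prod [CharP F 2] {ι : Type*} (s : Finset ι) (w y : ι → QBar) (hy : ∀ i, y i ≠ 0)
    (h : ∀ i ∈ s, w i = y i ∨ w i = -y i) :
    (if ∏ i ∈ s, w i = ∏ i ∈ s, y i then (0 : F) else 1) =
      ∑ i ∈ s, if w i = y i then 0 else 1 := by
  induction s using Finset.induction with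
  | empty => simp
  | insert a s has ih =>
    have hs := ih fun i hi => h i (Finset.mem_insert_of_mem hi)
    rw [Finset.prod_insert has, Finset.prod_insert has, Finset.sum_insert has, ← hs]
    have hpm : ∏ i ∈ s, w i = ∏ i ∈ s, y i ∨ ∏ i ∈ s, w i = -∏ i ∈ s, y i := by
      refine sq_eq_sq_iff_eq_or_eq_neg.1 ?_
      rw [← Finset.prod_pow, ← Finset.prod_pow]
      exact Finset.prod_congr rfl fun i hi => by
        rcases h i (Finset.mem_insert_of_mem hi) with e | e <;> simp [e]
    have hP : ∏ i ∈ s, y i ≠ 0 := Finset.prod_ne_zero_iff.2 fun i _ => hy i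
    have hn := neg_ne_self hP
    have hn2 := neg_ne_self (mul_ne_zero (hy a) hP)
    rcases h a (Finset.mem_insert_self a s) with e | e <;> rcases hpm with e' | e' <;>
      simp [e, e', hn, hn2, neg_ne_self (hy a), CharTwo.add_self_eq_zero]

/-- The norm of a number fixed by the stabiliser. -/
def tNorm (T : Transversal x₀) (a : QBar) : QBar := ∏ x, T.γ x a

theorem tNorm_mem_range (T : Transversal x₀) {a : QBar}
    (ha : ∀ g : GQ, g • x₀ = x₀ → g a = a) : ∃ N : ℚ, algebraMap ℚ QBar N = tNorm T a := by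
  have : IsGalois ℚ QBar := qBar_isGalois
  refine (InfiniteGalois.mem_range_algebraMap_iff_fixed _).2 fun g => ?_
  rw [tNorm, map_prod]
  refine (Fintype.prod_equiv (MulAction.toPerm g⁻¹) _ _ fun x => ?_).symm
  show T.γ x a = g (T.γ (g⁻¹ • x) a)
  conv_lhs => rw [← ha _ (T.part_mem g x)]
  rw [← AlgEquiv.mul_apply, ← AlgEquiv.mul_apply]
  congr 1
  rw [Transversal.part]; group

/-- The transfer of a quadratic character is that of the norm. -/
theorem tFun_phi [CharP F 2] (T : Transversal x₀) {a : QBar} (ha0 : a ≠ 0)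
    (ha : ∀ g : GQ, g • x₀ = x₀ → g a = a) (g : GQ) :
    tFun T (phi (F := F) a) g = phi (tNorm T a) g := by
  classical
  have hr : ∀ x, T.γ x (root a) ≠ 0 := fun x h => ha0 (by
    rw [← root_sq a, (map_eq_zero (T.γ x)).1 h, zero_pow two_ne_zero])
  have hsq : (∏ x, T.γ x (root a)) ^ 2 = tNorm T a := by
    rw [tNorm, ← Finset.prod_pow]
    exact Finset.prod_congr rfl fun x _ => by rw [← map_pow, root_sq]
  rw [phi_eq_flip hsq]
  have hg : g (∏ x, T.γ x (root a)) = ∏ x, T.γ x (T.part g x (root a)) := by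
    rw [map_prod]
    refine (Fintype.prod_equiv (MulAction.toPerm g⁻¹) _ _ fun x => ?_).symm
    show T.γ x (T.part g x (root a)) = g (T.γ (g⁻¹ • x) (root a))
    rw [← AlgEquiv.mul_apply, ← AlgEquiv.mul_apply]
    congr 1
    rw [Transversal.part]; group
  show ∑ x, phi a (T.part g x) = if g (∏ x, T.γ x (root a)) = ∏ x, T.γ x (root a) then 0 else 1
  rw [hg, flip_prod _ _ _ hr fun x _ => ?_]
  · refine Finset.sum_congr rfl fun x _ => ?_
    simp only [phi, flip, (T.γ x).injective.eq_iff]
  · rcases apply_eq_or_neg (root_sq a) (ha _ (T.part_mem g x)) with e | e <;> simp [e]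

/-- **Products with a rational entry.** -/
theorem tProd_rat_mem [CharP F 2] (hX : IsFiniteAction X) (T : Transversal x₀) {a : QBar}
    (ha0 : a ≠ 0) (ha : ∀ g : GQ, g • x₀ = x₀ → g a = a) (t : ℚ) :
    tProd T (phi (F := F) a) (phi (algebraMap ℚ QBar t)) -
      cup (phi (tNorm T a)) (phi (algebraMap ℚ QBar t)) ∈ cob := by
  set τ := algebraMap ℚ QBar t
  have hfix : ∀ g : GQ, g τ = τ := fun g => AlgEquiv.commutes g t
  have hhom : ∀ g h : GQ, phi (F := F) τ (g * h) = phi τ g + phi τ h := fun g h =>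
    phi_mul (hfix g) (hfix h)
  have h1 : phi (F := F) τ 1 = 0 := by
    have := hhom 1 1
    rw [mul_one, CharTwo.add_self_eq_zero] at this
    exact this
  have hinv : ∀ g : GQ, phi (F := F) τ g⁻¹ = phi τ g := fun g => by
    have := hhom g g⁻¹
    rw [mul_inv_cancel, h1] at this
    linear_combination -this - phi (F := F) τ g * CharTwo.two_eq_zero (R := F)
  set c' : GQ → X → F := fun g x => phi a (T.part g x)
  set m : X → F := fun x => phi τ (T.γ x)
  have e : tProd T (phi (F := F) a) (phi τ) - cup (phi (tNorm T a)) (phi τ) =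
      pair c' fun h y => m y + m (h⁻¹ • y) := by
    funext g h
    simp only [Pi.sub_apply, tProd_apply, cup, pair, ← tFun_phi T ha0 ha, tFun, Finset.sum_mul,
      ← Finset.sum_sub_distrib]
    refine Finset.sum_congr rfl fun x _ => ?_
    simp only [c', m, Transversal.part, hhom, hinv]
    ring
  rw [e, pair_coboundary_right (isFunCocycle_part T fun g h hg hh => phi_mul (ha g hg) (ha h hh)) m]
  exact cobMap_mem (sum_mul_finLvl hX (fun x => part_finLvl hX T (phi_mem_finLvl a) x) m)

end Fermat.Agent.RT.Two.Recip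

end
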