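import Fermat.Agent.RT.Two.Recip.Product
import Fermat.Agent.RT.Two.Local.Defs

/-!
# Reciprocity for cup products of adjoint classes

For a residual representation over `𝔽₂` and two adjoint classes of finite level whose cup product
is a coboundary at two, the sum over the odd primes of the tame functionals vanishes.
-/

set_option autoImplicit false
set_option linter.style.haveILetI false

noncomputable section

namespace Fermat.Agent.RT.Two.Recip

open Fermat.Agent.Arith Fermat.Agent.Deform Fermat.Agent.CFT.Tangent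

variable {k : Type} [Field k] [Algebra (ZMod 2) k]

theorem charP_two : CharP k 2 :=
  charP_of_injective_algebraMap (algebraMap (ZMod 2) k).injective 2

/-- The matrices over `𝔽₂` of determinant one, different from one. -/
abbrev Pt : Type := {x : Matrix (Fin 2) (Fin 2) (ZMod 2) // x.det = 1 ∧ x ≠ 1}

variable {r₀ : GQ →* M2 (ZMod 2)}

theorem rep_det (g : GQ) : (r₀ g).det = 1 := by
  have h : (r₀ g).det ≠ 0 := fun h => by
    have := congrArg Matrix.det (show r₀ g * r₀ g⁻¹ = 1 by rw [← map_mul, mul_inv_cancel, map_one])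
    rw [Matrix.det_mul, h, zero_mul, Matrix.det_one] at this
    exact zero_ne_one this
  exact Fin.eq_one_of_ne_zero _ h

/-- The conjugation action of the residual representation. -/
@[reducible]
def ptAction (r₀ : GQ →* M2 (ZMod 2)) : MulAction GQ Pt where
  smul g x := ⟨r₀ g * x.1 * r₀ g⁻¹,
    by rw [Matrix.det_mul, Matrix.det_mul, rep_det, rep_det, x.2.1]; simp,
    fun h => x.2.2 (by
      have h1 : r₀ g⁻¹ * r₀ g = 1 := by rw [← map_mul, inv_mul_cancel, map_one]
      calc x.1 = r₀ g⁻¹ * (r₀ g * x.1 * r₀ g⁻¹) * r₀ g := by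
            rw [← mul_assoc, ← mul_assoc, h1, one_mul, mul_assoc, h1, mul_one]
        _ = 1 := by rw [h, mul_one, h1])⟩
  one_smul x := Subtype.ext (by
    show r₀ 1 * x.1 * r₀ 1⁻¹ = x.1
    rw [inv_one, map_one, one_mul, mul_one])
  mul_smul g h x := Subtype.ext (by
    show r₀ (g * h) * x.1 * r₀ (g * h)⁻¹ = r₀ g * (r₀ h * x.1 * r₀ h⁻¹) * r₀ g⁻¹
    rw [mul_inv_rev, map_mul, map_mul]
    simp only [mul_assoc])

/-- The matrix over `k`. -/
def ptMat (k : Type) [Field k] [Algebra (ZMod 2) k] (x : Pt) : M2 k :=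
  x.1.map (algebraMap (ZMod 2) k)

theorem trace_mul_eq_sum (m n : M2 k) :
    (m * n).trace = ∑ x : Pt, (m * ptMat k x).trace * (n * ptMat k x).trace := by
  have hid : ∀ a b c d : Fin 2, (∑ x : Pt, x.1 b a * x.1 d c) =
      if a = d ∧ b = c then 1 else 0 := by decide
  have h : ∀ a b c d : Fin 2, (∑ x : Pt, ptMat k x b a * ptMat k x d c) =
      if a = d ∧ b = c then 1 else 0 := by
    intro a b c d
    rw [show (∑ x : Pt, ptMat k x b a * ptMat k x d c) =
      algebraMap (ZMod 2) k (∑ x : Pt, x.1 b a * x.1 d c) by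
        rw [map_sum]; exact Finset.sum_congr rfl fun x _ => by simp [ptMat], hid]
    split_ifs <;> simp
  calc (m * n).trace
      = ∑ a, ∑ b, m a b * n b a := by simp [Matrix.trace, Matrix.mul_apply]
    _ = ∑ a, ∑ b, ∑ c, ∑ d, (m a b * n c d) * (if a = d ∧ b = c then 1 else 0) := by
        simp only [mul_ite, mul_one, mul_zero, ite_and, Finset.sum_ite_eq,
          Finset.mem_univ, if_true]
    _ = _ := by
        simp only [← h, Finset.mul_sum, Matrix.trace, Matrix.diag_apply, Matrix.mul_apply]
        rw [Finset.sum_comm_cycle]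
        simp only [Fin.sum_univ_two]
        simp only [← Finset.sum_add_distrib]
        exact Finset.sum_congr rfl fun x _ => by ring

theorem ptMat_smul (g : GQ) (x : Pt) :
    letI := ptAction r₀
    ptMat k (g • x) = Local.extRep k r₀ g * ptMat k x * Local.extRep k r₀ g⁻¹ := by
  letI := ptAction r₀
  show (r₀ g * x.1 * r₀ g⁻¹).map (algebraMap (ZMod 2) k) = _
  rw [Matrix.map_mul, Matrix.map_mul]
  rfl

/-- The coordinates of an adjoint function. -/
def coordFun (c : GQ → M2 k) : GQ → Pt → k := fun g x => (c g * ptMat k x).trace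

theorem finLvl_coord {c : GQ → M2 k}
    (hc : IsAdCocycle (Local.extRep k r₀) c) (hcf : IsFiniteLevel c) (x : Pt) :
    (fun g => coordFun c g x) ∈ finLvl := by
  obtain ⟨L, hL, hcL⟩ := hcf
  haveI := hL
  haveI : IsGalois ℚ QBar := qBar_isGalois
  set E := IntermediateField.normalClosure ℚ L QBar
  haveI : Normal ℚ E := normalClosure.normal ℚ _ QBar
  haveI : FiniteDimensional ℚ E := normalClosure.is_finiteDimensional ℚ _ QBar
  haveI : IsGalois ℚ E := ⟨⟩
  refine mem_finLvl.2 ⟨E.fixingSubgroup, (InfiniteGalois.normal_iff_isGalois E).2 inferInstance,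
    IntermediateField.fixingSubgroup_isOpen E, fun g u hu => ?_⟩
  show coordFun c (g * u) x = coordFun c g x
  rw [coordFun, coordFun, hc, hcL u fun y hy =>
    (IntermediateField.mem_fixingSubgroup_iff E u).1 hu y (L.le_normalClosure hy),
    mul_zero, zero_mul, zero_add]

theorem isFiniteAction_pt (hr : GaloisFactorsThroughFiniteLevel r₀) :
    letI := ptAction r₀
    IsFiniteAction Pt := by
  letI := ptAction r₀
  obtain ⟨L, hL, hrL⟩ := hr
  haveI := hL
  haveI : IsGalois ℚ QBar := qBar_isGalois
  set E := IntermediateField.normalClosure ℚ L QBar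
  haveI : Normal ℚ E := normalClosure.normal ℚ _ QBar
  haveI : FiniteDimensional ℚ E := normalClosure.is_finiteDimensional ℚ _ QBar
  haveI : IsGalois ℚ E := ⟨⟩
  have h1 : ∀ u ∈ E.fixingSubgroup, r₀ u = 1 := fun u hu => hrL u fun y hy =>
    (IntermediateField.mem_fixingSubgroup_iff E u).1 hu y (L.le_normalClosure hy)
  refine ⟨E.fixingSubgroup, (InfiniteGalois.normal_iff_isGalois E).2 inferInstance,
    IntermediateField.fixingSubgroup_isOpen E, fun u hu x => Subtype.ext ?_⟩
  show r₀ u * x.1 * r₀ u⁻¹ = x.1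
  rw [h1 u hu, h1 u⁻¹ (inv_mem hu), one_mul, mul_one]

theorem isFunCocycle_coord {c : GQ → M2 k} (hc : IsAdCocycle (Local.extRep k r₀) c) :
    letI := ptAction r₀
    IsFunCocycle (coordFun c) := by
  letI := ptAction r₀
  intro g h x
  simp only [coordFun, hc g h, ptMat_smul (k := k) g⁻¹ x, inv_inv, add_mul, Matrix.trace_add]
  rw [add_comm]
  congr 1
  rw [Matrix.trace_mul_cycle (Local.extRep k r₀ g * c h), ← mul_assoc (c h),
    Matrix.trace_mul_comm (c h * (Local.extRep k r₀ g⁻¹ * ptMat k x))]
  simp only [mul_assoc]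
  rw [Matrix.trace_mul_comm]
  simp only [mul_assoc]

theorem cup_eq_pair {c d : GQ → M2 k} :
    letI := ptAction r₀
    Local.cup (Local.extRep k r₀) c d = pair (coordFun c) (coordFun d) := by
  letI := ptAction r₀
  funext g h
  rw [Local.cup, trace_mul_eq_sum]
  refine Finset.sum_congr rfl fun x _ => ?_
  simp only [coordFun, ptMat_smul (k := k) g⁻¹ x, inv_inv]
  congr 1
  rw [Matrix.trace_mul_cycle (Local.extRep k r₀ g * d h), ← mul_assoc (d h),
    Matrix.trace_mul_comm (d h * (Local.extRep k r₀ g⁻¹ * ptMat k x))]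
  simp only [mul_assoc]
  rw [Matrix.trace_mul_comm]
  simp only [mul_assoc]

/-- The cup product is a sum of rational symbols. -/
theorem cup_mem_symb' [Finite k] (hr : GaloisFactorsThroughFiniteLevel r₀) {c d : GQ → M2 k}
    (hc : IsAdCocycle (Local.extRep k r₀) c) (hd : IsAdCocycle (Local.extRep k r₀) d)
    (hcf : IsFiniteLevel c) (hdf : IsFiniteLevel d) :
    Local.cup (Local.extRep k r₀) c d ∈ symb := by
  classical
  haveI := charP_two (k := k)
  letI := ptAction r₀
  obtain ⟨U, hU, hUo, hfix⟩ := isFiniteAction_pt (r₀ := r₀) hr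
  rw [cup_eq_pair (r₀ := r₀)]
  let Q := MulAction.orbitRel.Quotient GQ Pt
  haveI : Fintype Q := Fintype.ofFinite _
  haveI : ∀ ω : Q, Fintype ω.orbit := fun ω => Fintype.ofFinite _
  have e : pair (coordFun c) (coordFun d) =
      ∑ ω : Q, pair (X := ω.orbit) (fun g x => coordFun c g x.1) (fun g x => coordFun d g x.1) := by
    funext g h
    simp only [Finset.sum_apply, pair, MulAction.orbitRel.Quotient.orbit.coe_smul]
    rw [← Equiv.sum_comp (MulAction.selfEquivSigmaOrbits' GQ Pt).symm, Fintype.sum_sigma]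
    rfl
  rw [e]
  refine Submodule.sum_mem _ fun ω _ => pair_mem_symb (X := ω.orbit)
    ⟨U, hU, hUo, fun u hu x => Subtype.ext (hfix u hu x.1)⟩ ?_ (fun g h x => ?_) (fun g h x => ?_)
    (fun x => finLvl_coord hc hcf x.1) (fun x => finLvl_coord hd hdf x.1)
  · obtain ⟨x₁, hx₁⟩ : ∃ x₁ : Pt, Quotient.mk'' x₁ = ω := Quotient.exists_rep ω
    let P : Pt → Prop := fun y => y.1.trace = x₁.1.trace
    have key : ∀ x : Pt, Fintype.card {y : Pt // y.1.trace = x.1.trace} ≤ 3 := by decide
    refine le_trans (Fintype.card_le_of_injective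
      (fun y : ω.orbit => (⟨y.1, ?_⟩ : {y : Pt // P y})) fun a b h => ?_) (key x₁)
    · obtain ⟨g, hg⟩ : ∃ g : GQ, g • x₁ = y.1 := by
        subst hx₁
        have := y.2
        simp only [MulAction.orbitRel.Quotient.orbit_mk] at this
        exact this
      show (y.1 : Pt).1.trace = _
      rw [← hg]
      show (r₀ g * x₁.1 * r₀ g⁻¹).trace = _
      rw [Matrix.trace_mul_cycle, ← map_mul, inv_mul_cancel, map_one, one_mul]
    · exact Subtype.ext (congrArg (fun z : {y : Pt // P y} => z.1) h)
  · show coordFun c (g * h) x.1 = coordFun c g x.1 + coordFun c h ((g⁻¹ • x : ω.orbit) : Pt)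
    rw [MulAction.orbitRel.Quotient.orbit.coe_smul]
    exact isFunCocycle_coord hc g h x.1
  · show coordFun d (g * h) x.1 = coordFun d g x.1 + coordFun d h ((g⁻¹ • x : ω.orbit) : Pt)
    rw [MulAction.orbitRel.Quotient.orbit.coe_smul]
    exact isFunCocycle_coord hd g h x.1

/-- A function of finite level on the decomposition group extends. -/
theorem mem_cobTwo_of_isLocalCobd {z : GQ → GQ → k} (h : Local.IsLocalCobd z) : z ∈ cobTwo := by
  classical
  haveI := charP_two (k := k)
  obtain ⟨f, ⟨L, hL, hfL⟩, hf⟩ := h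
  haveI := hL
  set E := IntermediateField.normalClosure ℚ L QBar
  let D : Subgroup GQ := CFT.Flat.decG 2
  let f' : GQ → k := fun g =>
    if h : ∃ d ∈ D, ∀ x ∈ E, d x = g x then f h.choose else 0
  have hf' : ∀ d ∈ D, f' d = f d := by
    intro d hd
    have h : ∃ d' ∈ D, ∀ x ∈ E, d' x = d x := ⟨d, hd, fun _ _ => rfl⟩
    simp only [f', dif_pos h]
    have h2 := hfL d hd (d⁻¹ * h.choose) (D.mul_mem (D.inv_mem hd) h.choose_spec.1) fun x hx => by
      rw [AlgEquiv.mul_apply, h.choose_spec.2 x (L.le_normalClosure hx)]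
      exact d.symm_apply_apply x
    rwa [mul_inv_cancel_left] at h2
  have hlocD : ∀ s : G2, loc s ∈ D := fun s => localGaloisToGlobal_mem_decompositionSubgroup 2 s
  haveI : FiniteDimensional ℚ E := normalClosure.is_finiteDimensional ℚ _ QBar
  refine ⟨f', ?_, fun s t => ?_⟩
  · let b := Module.finBasis ℚ E
    refine finLvl_of_eq (Finset.univ.image fun i => (b i : QBar)) fun g g' hgg => ?_
    have hagree : ∀ x ∈ E, g x = g' x := by
      intro x hx
      have hsum := congrArg (fun y : E => (y : QBar)) (b.sum_repr ⟨x, hx⟩)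
      simp only [IntermediateField.coe_sum, IntermediateField.coe_smul] at hsum
      rw [← hsum, map_sum, map_sum]
      exact Finset.sum_congr rfl fun i _ => by
        rw [Algebra.smul_def, map_mul, map_mul, AlgEquiv.commutes, AlgEquiv.commutes,
          hgg _ (Finset.mem_image_of_mem _ (Finset.mem_univ i))]
    simp only [f']
    by_cases h : ∃ d ∈ D, ∀ x ∈ E, d x = g x
    · have h' : ∃ d ∈ D, ∀ x ∈ E, d x = g' x := by
        obtain ⟨d, hd, e⟩ := h; exact ⟨d, hd, fun x hx => (e x hx).trans (hagree x hx)⟩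
      rw [dif_pos h, dif_pos h']
      have h2 := hfL h.choose h.choose_spec.1 (h.choose⁻¹ * h'.choose)
        (D.mul_mem (D.inv_mem h.choose_spec.1) h'.choose_spec.1) fun x hx => by
          rw [AlgEquiv.mul_apply, h'.choose_spec.2 x (L.le_normalClosure hx),
            ← hagree x (L.le_normalClosure hx), ← h.choose_spec.2 x (L.le_normalClosure hx)]
          exact h.choose.symm_apply_apply x
      rw [mul_inv_cancel_left] at h2
      exact h2.symm
    · have h' : ¬ ∃ d ∈ D, ∀ x ∈ E, d x = g' x := fun ⟨d, hd, e⟩ =>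
        h ⟨d, hd, fun x hx => (e x hx).trans (hagree x hx).symm⟩
      rw [dif_neg h, dif_neg h']
  · rw [cobMap_apply, hf' _ (hlocD s), hf' _ (hlocD t), hf' _ (D.mul_mem (hlocD s) (hlocD t)),
      hf _ (hlocD s) _ (hlocD t), CharTwo.sub_eq_add]

theorem infFun_cup {c d : GQ → M2 k}
    (hc : IsAdCocycle (Local.extRep k r₀) c) (hd : IsAdCocycle (Local.extRep k r₀) d)
    (hinf : r₀ complexConjugation ≠ 1) :
    infFun (Local.cup (Local.extRep k r₀) c d) = 0 := by
  haveI := charP_two (k := k)
  set j := complexConjugation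
  set r := Local.extRep k r₀
  have hrj : r j * r j = 1 := by rw [← map_mul, complexConjugation_mul_self, map_one]
  have hone : ∀ e : GQ → M2 k, IsAdCocycle r e → e 1 = 0 := fun e he => by
    simpa using he 1 1
  have hfix : ∀ e : GQ → M2 k, IsAdCocycle r e → r j * e j = e j * r j := fun e he => by
    have h1 := he j j
    rw [complexConjugation_mul_self, hone e he, show j⁻¹ = j from
      inv_eq_of_mul_eq_one_left complexConjugation_mul_self] at h1
    have h2 : r j * e j * r j = e j := by
      rw [eq_neg_of_add_eq_zero_left h1.symm]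
      ext a b; exact CharTwo.neg_eq _
    conv_rhs => rw [← h2]
    rw [mul_assoc (r j * e j), hrj, mul_one]
  rw [infFun_apply, Local.cup, Local.cup, hone c hc, zero_mul, Matrix.trace_zero, add_zero,
    show j⁻¹ = j from inv_eq_of_mul_eq_one_left complexConjugation_mul_self, hfix d hd,
    mul_assoc (d j), hrj, mul_one]
  -- two matrices commuting with an involution different from one
  have hJ : r₀ j = !![0, 1; 1, 0] ∨ r₀ j = !![1, 1; 0, 1] ∨ r₀ j = !![1, 0; 1, 1] := by
    have h1 : r₀ j * r₀ j = 1 := by rw [← map_mul, complexConjugation_mul_self, map_one]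
    have key : ∀ m : Matrix (Fin 2) (Fin 2) (ZMod 2), m * m = 1 → m ≠ 1 →
        m = !![0, 1; 1, 0] ∨ m = !![1, 1; 0, 1] ∨ m = !![1, 0; 1, 1] := by decide
    exact key _ h1 hinf
  have hr : r j = (r₀ j).map (algebraMap (ZMod 2) k) := rfl
  have e00 : ∀ e : GQ → M2 k, IsAdCocycle r e → ∀ a b, (r j * e j) a b = (e j * r j) a b :=
    fun e he a b => by rw [hfix e he]
  have hc00 := e00 c hc 0 0
  have hc01 := e00 c hc 0 1
  have hc10 := e00 c hc 1 0
  have hd00 := e00 d hd 0 0
  have hd01 := e00 d hd 0 1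
  have hd10 := e00 d hd 1 0
  have h2 := CharTwo.two_eq_zero (R := k)
  simp only [Matrix.trace_fin_two, Matrix.mul_apply, Fin.sum_univ_two]
  rcases hJ with h | h | h <;>
    simp [hr, h, Matrix.mul_apply, Fin.sum_univ_two] at hc00 hc01 hc10 hd00 hd01 hd10 <;>
    grind

/-- **Reciprocity for adjoint classes.** -/
theorem reciprocity [Finite k] (hr : GaloisFactorsThroughFiniteLevel r₀)
    (hinf : r₀ complexConjugation ≠ 1) {c d : GQ → M2 k}
    (hc : IsAdCocycle (Local.extRep k r₀) c) (hd : IsAdCocycle (Local.extRep k r₀) d)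
    (hcf : IsFiniteLevel c) (hdf : IsFiniteLevel d)
    (h2 : Local.IsLocalCobd (Local.cup (Local.extRep k r₀) c d))
    {pr : ℕ → GQ × GQ} (hpr : IsPairChoice pr) {S : Finset ℕ} (hS : OddPrimes S)
    (hoff : ∀ p : ℕ, p.Prime → p ≠ 2 → p ∉ S →
      tameFun p (pr p).1 (pr p).2 (Local.cup (Local.extRep k r₀) c d) = 0) :
    ∑ p ∈ S, tameFun p (pr p).1 (pr p).2 (Local.cup (Local.extRep k r₀) c d) = 0 := by
  haveI := charP_two (k := k)
  have h := totalFun_eq_zero hpr (cup_mem_symb' hr hc hd hcf hdf) (mem_cobTwo_of_isLocalCobd h2)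
    hS hoff
  rwa [totalFun_apply, infFun_cup hc hd hinf, add_zero] at h

/-- The value when the second class is unramified. -/
theorem tameFun_cup_of_unramified {q : ℕ} (hq : Odd q) {s t : GQ} {c d : GQ → M2 k}
    (hc : IsAdCocycle (Local.extRep k r₀) c)
    (hrt : Local.extRep k r₀ t = 1) (hdt : d t = 0) :
    tameFun q s t (Local.cup (Local.extRep k r₀) c d) = (c t * d s).trace := by
  haveI := charP_two (k := k)
  set r := Local.extRep k r₀
  have hone : c 1 = 0 := by simpa using hc 1 1
  have hrinv : r t⁻¹ = 1 := by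
    have : r t * r t⁻¹ = 1 := by rw [← map_mul, mul_inv_cancel, map_one]
    rwa [hrt, one_mul] at this
  have hpow : ∀ i : ℕ, r (t ^ i) = 1 ∧ r (t ^ i)⁻¹ = 1 ∧ c (t ^ i) = (i : k) • c t := by
    intro i
    induction i with
    | zero => simp [hone]
    | succ i ih =>
      refine ⟨by rw [pow_succ, map_mul, ih.1, hrt, one_mul],
        by rw [pow_succ, mul_inv_rev, map_mul, hrinv, ih.2.1, one_mul], ?_⟩
      rw [pow_succ, hc, ih.1, ih.2.1, one_mul, mul_one, ih.2.2, Nat.cast_succ, add_smul, one_smul,
        add_comm]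
  obtain ⟨h1, h2, h3⟩ := hpow q
  rw [tameFun_apply]
  simp only [Local.cup, hdt, mul_zero, zero_mul, Matrix.trace_zero, Finset.sum_const_zero,
    zero_add, h1, h2, h3, natCast_odd hq, one_smul, one_mul, mul_one, hone, add_zero]

/-- The value at coboundary inertia classes. -/
theorem tameFun_cup_of_coboundary {q : ℕ} (hq : Odd q) {s t : GQ} (hrel : s * t = t ^ q * s)
    {c d : GQ → M2 k}
    (hc : IsAdCocycle (Local.extRep k r₀) c) (hd : IsAdCocycle (Local.extRep k r₀) d)
    {m n : M2 k} (hct : c t = Local.extRep k r₀ t * m * Local.extRep k r₀ t⁻¹ - m)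
    (hdt : d t = Local.extRep k r₀ t * n * Local.extRep k r₀ t⁻¹ - n) :
    tameFun q s t (Local.cup (Local.extRep k r₀) c d) = 0 := by
  haveI := charP_two (k := k)
  set r := Local.extRep k r₀
  let act : GQ → M2 k → M2 k := fun g x => r g * x * r g⁻¹
  have act_mul : ∀ g h x, act (g * h) x = act g (act h x) := fun g h x => by
    simp only [act, mul_inv_rev, map_mul, mul_assoc]
  have act_add : ∀ g x y, act g (x + y) = act g x + act g y := fun g x y => by
    simp only [act, mul_add, add_mul]
  have act_sub : ∀ g x y, act g (x - y) = act g x - act g y := fun g x y => by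
    simp only [act, mul_sub, sub_mul]
  have act_trace : ∀ g x y, (act g x * act g y).trace = (x * y).trace := fun g x y => by
    have h1 : r g⁻¹ * r g = 1 := by rw [← map_mul, inv_mul_cancel, map_one]
    rw [show act g x * act g y = r g * (x * y) * r g⁻¹ by
      simp only [act]
      rw [mul_assoc (r g * x), ← mul_assoc (r g⁻¹), ← mul_assoc (r g⁻¹) (r g), h1, one_mul]
      simp only [mul_assoc],
      Matrix.trace_mul_cycle, h1, one_mul]
  let c' : GQ → M2 k := fun g => c g - (act g m - m)
  have hc' : ∀ g h, c' (g * h) = act g (c' h) + c' g := by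
    intro g h
    simp only [c', hc g h, act_mul, act_sub]
    simp only [act]
    abel
  have hc't : c' t = 0 := by simp only [c', act, hct, sub_self]
  have hc'1 : c' 1 = 0 := by simpa [act] using hc' 1 1
  have hc'pow : ∀ i : ℕ, c' (t ^ i) = 0 := by
    intro i
    induction i with
    | zero => rw [pow_zero, hc'1]
    | succ i ih => rw [pow_succ, hc', ih, hc't]; simp [act]
  have hsplit : Local.cup r c d = Local.cup r c' d + cobMap fun g => (m * d g).trace := by
    funext g h
    simp only [Local.cup, Pi.add_apply, cobMap_apply, hd g h, c', act, mul_add, Matrix.trace_add,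
      sub_mul, Matrix.trace_sub]
    have e : (r g * m * r g⁻¹ * (r g * d h * r g⁻¹)).trace = (m * d h).trace :=
      act_trace g m (d h)
    rw [e]
    linear_combination -(Matrix.trace (m * (r g * d h * r g⁻¹)) + (m * d g).trace) *
      CharTwo.two_eq_zero (R := k)
  rw [hsplit, map_add, tameFun_cobMap hq hrel, add_zero, tameFun_apply]
  simp only [Local.cup, hc'pow, hc'1, zero_mul, Matrix.trace_zero, Finset.sum_const_zero, add_zero]
  have hfix : act (t ^ q) (c' s) = c' s := by
    have h1 := hc' s t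
    rw [hrel, hc' (t ^ q) s, hc'pow, hc't] at h1
    simpa [act] using h1
  show (c' s * act s (d t)).trace = 0
  rw [hdt]
  show (c' s * act s (act t n - n)).trace = 0
  rw [act_sub, ← act_mul, hrel, act_mul, mul_sub, Matrix.trace_sub]
  conv_lhs => arg 1; rw [← hfix]
  rw [act_trace, sub_self]

end Fermat.Agent.RT.Two.Recip

end
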