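import Fermat.Agent.Arith.Places

/-!
# Products of quadratic characters

Functions of two variables on the absolute Galois group of the rationals modulo coboundaries of
functions of finite level, the square root characters and the Steinberg relation.
-/

set_option autoImplicit false

noncomputable section

namespace Fermat.Agent.RT.Two.Recip

open Fermat.Agent.Arith

variable {F : Type*} [Field F]

/-- Functions invariant under an open normal subgroup. -/
def finLvl : Submodule F (GQ → F) where
  carrier := {f | ∃ U : Subgroup GQ, U.Normal ∧ IsOpen (U : Set GQ) ∧ ∀ g, ∀ u ∈ U, f (g * u) = f g}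
  add_mem' := by
    rintro a b ⟨U, hU, hUo, ha⟩ ⟨V, hV, hVo, hb⟩
    exact ⟨U ⊓ V, inferInstance, hUo.inter hVo, fun g u hu => by
      simp [ha g u hu.1, hb g u hu.2]⟩
  zero_mem' := ⟨⊤, inferInstance, isOpen_univ, fun _ _ _ => rfl⟩
  smul_mem' := by
    rintro c a ⟨U, hU, hUo, ha⟩
    exact ⟨U, hU, hUo, fun g u hu => by simp [ha g u hu]⟩

theorem mem_finLvl {f : GQ → F} :
    f ∈ finLvl ↔ ∃ U : Subgroup GQ, U.Normal ∧ IsOpen (U : Set GQ) ∧
      ∀ g, ∀ u ∈ U, f (g * u) = f g := Iff.rfl

/-- An open normal subgroup fixing finitely many given numbers. -/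
theorem exists_open_normal (s : Finset QBar) :
    ∃ U : Subgroup GQ, U.Normal ∧ IsOpen (U : Set GQ) ∧ ∀ u ∈ U, ∀ x ∈ s, u x = x := by
  have : IsGalois ℚ QBar := qBar_isGalois
  have : FiniteDimensional ℚ (IntermediateField.adjoin ℚ (s : Set QBar)) :=
    IntermediateField.finiteDimensional_adjoin fun x _ => Algebra.IsIntegral.isIntegral x
  set L := IntermediateField.normalClosure ℚ (IntermediateField.adjoin ℚ (s : Set QBar)) QBar
  have : Normal ℚ L := normalClosure.normal ℚ _ QBar
  have : FiniteDimensional ℚ L := normalClosure.is_finiteDimensional ℚ _ QBar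
  have : IsGalois ℚ L := ⟨⟩
  refine ⟨L.fixingSubgroup, (InfiniteGalois.normal_iff_isGalois L).2 inferInstance,
    IntermediateField.fixingSubgroup_isOpen L, fun u hu x hx => ?_⟩
  exact (IntermediateField.mem_fixingSubgroup_iff L u).1 hu x
    (IntermediateField.le_normalClosure _ (IntermediateField.subset_adjoin ℚ _ hx))

/-- A function depending only on the images of finitely many numbers is of finite level. -/
theorem finLvl_of_eq {f : GQ → F} (s : Finset QBar)
    (h : ∀ g g' : GQ, (∀ x ∈ s, g x = g' x) → f g = f g') : f ∈ finLvl := by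
  obtain ⟨U, hU, hUo, hfix⟩ := exists_open_normal s
  exact mem_finLvl.2 ⟨U, hU, hUo, fun g u hu => h _ _ fun x hx => by
    rw [AlgEquiv.mul_apply, hfix u hu x hx]⟩

/-- The coboundary. -/
def cobMap : (GQ → F) →ₗ[F] (GQ → GQ → F) where
  toFun f g h := f g + f h + f (g * h)
  map_add' a b := by funext g h; simp [add_add_add_comm]
  map_smul' c a := by funext g h; simp [mul_add]

theorem cobMap_apply (f : GQ → F) (g h : GQ) : cobMap f g h = f g + f h + f (g * h) := rfl

/-- The coboundaries. -/
def cob : Submodule F (GQ → GQ → F) := (finLvl (F := F)).map cobMap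

theorem cobMap_mem {f : GQ → F} (hf : f ∈ finLvl) : cobMap f ∈ cob :=
  Submodule.mem_map_of_mem hf

/-- The product of two functions. -/
def cup (a b : GQ → F) : GQ → GQ → F := fun g h => a g * b h

theorem cup_add_left (a a' b : GQ → F) : cup (a + a') b = cup a b + cup a' b := by
  funext g h; simp [cup, add_mul]

theorem cup_add_right (a b b' : GQ → F) : cup a (b + b') = cup a b + cup a b' := by
  funext g h; simp [cup, mul_add]

/-! ### Square root characters -/

open scoped Classical in
/-- `1` when the number moves. -/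
def flip (x : QBar) (g : GQ) : F := if g x = x then 0 else 1

theorem flip_eq_zero {x : QBar} {g : GQ} (h : g x = x) : flip (F := F) x g = 0 := if_pos h

theorem flip_eq_one {x : QBar} {g : GQ} (h : g x ≠ x) : flip (F := F) x g = 1 := if_neg h

theorem apply_eq_or_neg {x a : QBar} (hx : x ^ 2 = a) {g : GQ} (hg : g a = a) :
    g x = x ∨ g x = -x :=
  sq_eq_sq_iff_eq_or_eq_neg.1 (by rw [← map_pow, hx, hg])

theorem neg_ne_self {x : QBar} (hx : x ≠ 0) : -x ≠ x := fun h => hx (neg_eq_self.1 h)

/-- A square root of a number. -/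
def root (a : QBar) : QBar := (IsAlgClosed.exists_pow_nat_eq a (two_pos)).choose

theorem root_sq (a : QBar) : root a ^ 2 = a :=
  (IsAlgClosed.exists_pow_nat_eq a two_pos).choose_spec

/-- The character of a square root. -/
def phi (a : QBar) : GQ → F := flip (root a)

theorem phi_eq_flip {a x : QBar} (hx : x ^ 2 = a) (g : GQ) : phi (F := F) a g = flip x g := by
  rcases sq_eq_sq_iff_eq_or_eq_neg.1 (show x ^ 2 = root a ^ 2 by rw [hx, root_sq]) with h | h <;>
    simp [phi, flip, h]

variable [CharP F 2]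

theorem flip_mul {x a : QBar} (hx : x ^ 2 = a) {g h : GQ} (hg : g a = a) (hh : h a = a) :
    flip (F := F) x (g * h) = flip x g + flip x h := by
  by_cases hx0 : x = 0
  · simp [flip, hx0]
  have hn := neg_ne_self hx0
  rcases apply_eq_or_neg hx hg with h1 | h1 <;> rcases apply_eq_or_neg hx hh with h2 | h2 <;>
    simp [flip, h1, h2, hn, CharTwo.add_self_eq_zero]

theorem phi_mul {a : QBar} {g h : GQ} (hg : g a = a) (hh : h a = a) :
    phi (F := F) a (g * h) = phi a g + phi a h := flip_mul (root_sq a) hg hh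

theorem phi_mul_arg {a b : QBar} (ha : a ≠ 0) (hb : b ≠ 0) {g : GQ} (hga : g a = a)
    (hgb : g b = b) : phi (F := F) (a * b) g = phi a g + phi b g := by
  have h2 : (root a * root b) ^ 2 = a * b := by rw [mul_pow, root_sq, root_sq]
  have hx : root a ≠ 0 := fun h => ha (by rw [← root_sq a, h, zero_pow two_ne_zero])
  have hy : root b ≠ 0 := fun h => hb (by rw [← root_sq b, h, zero_pow two_ne_zero])
  have hn := neg_ne_self (mul_ne_zero hx hy)
  rw [phi_eq_flip h2]
  rcases apply_eq_or_neg (root_sq a) hga with h1 | h1 <;>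
    rcases apply_eq_or_neg (root_sq b) hgb with h2' | h2' <;>
      simp [phi, flip, h1, h2', hn, neg_ne_self hx, neg_ne_self hy, CharTwo.add_self_eq_zero]

omit [CharP F 2] in
theorem phi_sq (a : QBar) {g : GQ} (hg : g a = a) : phi (F := F) (a ^ 2) g = 0 := by
  rw [phi_eq_flip (x := a) rfl, flip_eq_zero hg]

omit [CharP F 2] in
theorem phi_mem_finLvl (a : QBar) : phi (F := F) a ∈ finLvl :=
  finLvl_of_eq {root a} fun g g' h => by simp [phi, flip, h (root a) (Finset.mem_singleton_self _)]

open scoped Classical in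
/-- **The Steinberg relation.** -/
theorem steinberg {a b : QBar} (hab : a + b = 1) (ha : a ≠ 0) (hb : b ≠ 0) :
    ∃ f ∈ finLvl (F := F), ∀ g h : GQ, g a = a → h a = a →
      phi b g * phi a h = f g + f h + f (g * h) := by
  set α := root a
  set γ := root (1 + α)
  set γ' := root (1 - α)
  have hα : α ^ 2 = a := root_sq a
  have hγ : γ ^ 2 = 1 + α := root_sq _
  have hγ' : γ' ^ 2 = 1 - α := root_sq _
  have hβ : (γ * γ') ^ 2 = b := by rw [mul_pow, hγ, hγ']; linear_combination -hα - hab
  have hprod : γ * γ' ≠ 0 := fun h => hb (by rw [← hβ, h, zero_pow two_ne_zero])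
  have hγ0 : γ ≠ 0 := left_ne_zero_of_mul hprod
  have hγ'0 : γ' ≠ 0 := right_ne_zero_of_mul hprod
  have hα0 : α ≠ 0 := fun h => ha (by rw [← hα, h, zero_pow two_ne_zero])
  have hne : γ ≠ γ' ∧ γ ≠ -γ' := by
    have : γ ^ 2 ≠ γ' ^ 2 := fun h => neg_ne_self hα0 (by linear_combination hγ - hγ' - h)
    exact ⟨fun h => this (by rw [h]), fun h => this (by rw [h, neg_sq])⟩
  have hn := neg_ne_self hγ0
  have hn' := neg_ne_self hγ'0
  have hnp := neg_ne_self hprod
  have e1 : γ' ≠ γ := hne.1.symm
  have e2 : -γ' ≠ γ := hne.2.symm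
  have e3 : -γ ≠ γ' := fun h => hne.2 (neg_eq_iff_eq_neg.1 h)
  refine ⟨fun g => if g γ = γ ∨ g γ = γ' then 0 else 1,
    finLvl_of_eq {γ} fun g g' h => by simp [h γ (Finset.mem_singleton_self _)], fun g h hg hh => ?_⟩
  have key : ∀ g : GQ, g a = a →
      (g α = α ∧ (g γ = γ ∨ g γ = -γ) ∧ (g γ' = γ' ∨ g γ' = -γ')) ∨
      (g α = -α ∧ (g γ = γ' ∨ g γ = -γ') ∧ (g γ' = γ ∨ g γ' = -γ)) := by
    intro g hg
    rcases apply_eq_or_neg hα hg with e | e
    · exact Or.inl ⟨e, sq_eq_sq_iff_eq_or_eq_neg.1 (by rw [← map_pow, hγ, map_add, map_one, e]),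
        sq_eq_sq_iff_eq_or_eq_neg.1 (by rw [← map_pow, hγ', map_sub, map_one, e])⟩
    · exact Or.inr ⟨e, sq_eq_sq_iff_eq_or_eq_neg.1
          (by rw [← map_pow, hγ, hγ', map_add, map_one, e, ← sub_eq_add_neg]),
        sq_eq_sq_iff_eq_or_eq_neg.1
          (by rw [← map_pow, hγ, hγ', map_sub, map_one, e, sub_neg_eq_add])⟩
  have hnα := neg_ne_self hα0
  rw [phi_eq_flip hβ, phi_eq_flip hα]
  rcases key g hg with ⟨g0, g1 | g1, g2 | g2⟩ | ⟨g0, g1 | g1, g2 | g2⟩ <;>
    rcases key h hh with ⟨h0, h1 | h1, -⟩ | ⟨h0, h1 | h1, -⟩ <;>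
      simp [flip, g1, g2, h0, h1, hn, hn', hnp, hnα, e1, e2, e3, hne.1,
        CharTwo.add_self_eq_zero, mul_comm γ' γ]

omit [CharP F 2] in
/-- The product is symmetric up to a coboundary. -/
theorem cobMap_prod_of_hom [CharP F 2] {a b : GQ → F} {g h : GQ}
    (ha : a (g * h) = a g + a h) (hb : b (g * h) = b g + b h) :
    cobMap (fun x => a x * b x) g h = a g * b h + b g * a h := by
  simp only [cobMap_apply, ha, hb]
  linear_combination (a g * b g + a h * b h) * CharTwo.two_eq_zero (R := F)

end Fermat.Agent.RT.Two.Recip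

end
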