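import Fermat.Agent.Arith.GaloisClosed
import Fermat.Agent.CFT.Flat.Tame

/-!
# A Frobenius element and a tame element of two-power order with the tame relation

At an odd prime `q` there are a Frobenius `s` and an inertia element `t` moving the square root of
`q` with `s t = t ^ q s` in the absolute Galois group.
-/

set_option autoImplicit false
set_option linter.style.haveILetI false

noncomputable section

namespace Fermat.Agent.RT.Two.Recip

open Fermat.Agent.Arith Fermat.Agent.CFT.Flat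
open scoped Pointwise

/-- A Frobenius and a tame inertia element with the tame relation. -/
structure IsTamePair (A : ValuationSubring QBar) (q : ℕ) (s t : GQ) : Prop where
  frob : A.IsFrobeniusAt s q
  inertia : t ∈ A.inertiaSubgroupIn ℚ
  rel : s * t = t ^ q * s
  moves : ∀ x : QBar, x ^ 2 = (q : QBar) → t x ≠ x

variable (q : ℕ) [hq : Fact q.Prime]

/-- The relation at one finite level. -/
theorem exists_pair_level (hq2 : q ≠ 2) {r : QBar} (hr : r ^ 2 = (q : QBar))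
    (L : IntermediateField ℚ QBar) [FiniteDimensional ℚ L] [Normal ℚ L] (hrL : r ∈ L) :
    ∃ s t : GQ, s ∈ decG q ∧ (∀ x, nrm q x ≤ 1 → nrm q (s x - x ^ q) < 1) ∧ t ∈ inG q ∧
      t r ≠ r ∧ ∀ y ∈ L, (s * t) y = (t ^ q * s) y := by
  classical
  have hodd : Odd q := hq.out.odd_of_ne_two hq2
  have hr0 : r ≠ 0 := fun h => hq.out.ne_zero (by
    rw [h, zero_pow two_ne_zero] at hr; exact_mod_cast hr.symm)
  -- the level
  set H : Subgroup GQ := inG q ⊓ L.fixingSubgroup with hHdef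
  have hH : IsLevel q H := ⟨inf_le_left, L, inferInstance, le_rfl⟩
  let res : GQ →* (L ≃ₐ[ℚ] L) := AlgEquiv.restrictNormalHom (F := ℚ) (K₁ := QBar) L
  have hres : ∀ g : GQ, res g = 1 ↔ g ∈ L.fixingSubgroup := fun g => by
    rw [IntermediateField.mem_fixingSubgroup_iff]
    refine ⟨fun h y hy => ?_, fun h => AlgEquiv.ext fun y => Subtype.ext ?_⟩
    · have e := AlgEquiv.restrictNormal_commutes g L ⟨y, hy⟩
      rw [show g.restrictNormal L = 1 from h] at e
      exact e.symm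
    · exact (AlgEquiv.restrictNormal_commutes g L y).trans (h y y.2)
  have hnorm : ∀ g ∈ inG q, ∀ h ∈ H, g⁻¹ * h * g ∈ H := fun g hg h hh =>
    ⟨(inG q).mul_mem ((inG q).mul_mem ((inG q).inv_mem hg) hh.1) hg, (hres _).1 (by
      rw [map_mul, map_mul, (hres h).2 hh.2, mul_one, map_inv, inv_mul_cancel])⟩
  obtain ⟨π, z, -, -, -, -, hzH, hwild, hfrobz⟩ := exists_tame_char q hH hnorm
  -- the image of inertia
  let resI : inG q →* (L ≃ₐ[ℚ] L) := res.comp (inG q).subtype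
  set I : Subgroup (L ≃ₐ[ℚ] L) := resI.range
  have hwd : ∀ g h : inG q, resI g = resI h → z g = z h := by
    intro g h e
    have hm : ((g⁻¹ * h : inG q) : GQ) ∈ H :=
      ⟨(g⁻¹ * h : inG q).2, (hres _).1 (by
        show resI (g⁻¹ * h) = 1
        rw [map_mul, map_inv, e, inv_mul_cancel])⟩
    have h2 := hzH _ hm
    rw [← mul_inv_cancel_left g h, map_mul, h2, mul_one]
  choose sec hsec using fun i : I => (i.2 : ∃ g, resI g = (i : L ≃ₐ[ℚ] L))
  let zI : I →* QBar :=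
    { toFun := fun i => z (sec i)
      map_one' := by rw [hwd (sec 1) 1 (by rw [hsec, map_one]; rfl), map_one]
      map_mul' := fun a b => by
        rw [← map_mul z]
        exact hwd _ _ (by rw [hsec, map_mul, hsec, hsec]; rfl) }
  have hzI : ∀ g : inG q, zI ⟨resI g, ⟨g, rfl⟩⟩ = z g := fun g => hwd _ _ (hsec _)
  -- a Sylow two-subgroup
  haveI : Fact (Nat.Prime 2) := ⟨Nat.prime_two⟩
  obtain ⟨P⟩ : Nonempty (Sylow 2 I) := inferInstance
  have hinjP : Function.Injective (zI.comp (P : Subgroup I).subtype) := by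
    refine (injective_iff_map_eq_one _).2 fun a ha => ?_
    obtain ⟨n, hn⟩ := hwild (sec a.1) ha
    have h1 : a.1 ^ q ^ n = 1 := Subtype.ext (by
      rw [Subgroup.coe_pow, ← hsec, ← map_pow, Subgroup.coe_one]
      exact (hres _).2 hn.2)
    obtain ⟨k, hk⟩ := P.2 a
    have h2 : a.1 ^ 2 ^ k = 1 := by
      simpa using Subtype.ext_iff.1 hk
    refine Subtype.ext ?_
    show a.1 = 1
    refine orderOf_eq_one_iff.1 (Nat.eq_one_of_dvd_one ?_)
    have hcop : Nat.Coprime (q ^ n) (2 ^ k) :=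
      ((Nat.coprime_primes hq.out Nat.prime_two).2 hq2).pow _ _
    rw [← hcop.gcd_eq_one]
    exact Nat.dvd_gcd (orderOf_dvd_of_pow_eq_one h1) (orderOf_dvd_of_pow_eq_one h2)
  obtain ⟨t₀, ht₀⟩ := (isCyclic_of_injective_ringHom _ hinjP).exists_generator
  -- an element moving `r`
  obtain ⟨τ, hτ, hτθ, -⟩ := exists_tame_generator q
  have hmove : τ r ≠ r := by
    obtain ⟨c, hc⟩ := hodd
    have he : e₀ q = 2 * (2 * c * (c + 1)) := by
      rw [e₀, hc]; ring_nf; omega
    set d := 2 * c * (c + 1) with hd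
    have hd0 : 0 < d := by have := e₀_pos q; omega
    have h1 : r = rad q ^ d ∨ r = -rad q ^ d :=
      sq_eq_sq_iff_eq_or_eq_neg.1 (by rw [hr, ← pow_mul, mul_comm d 2, ← he, rad_pow])
    have hne1 : theta q τ ^ d ≠ 1 := fun h => by
      have := Nat.le_of_dvd hd0 (hτθ.dvd_of_pow_eq_one d h)
      omega
    intro hfix
    apply hne1
    have h2 : τ (rad q ^ d) = rad q ^ d := by
      rcases h1 with h | h
      · rw [← h]; exact hfix
      · have := hfix; rw [h, map_neg] at this; exact neg_injective this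
    rw [map_pow, map_rad, mul_pow] at h2
    exact (mul_eq_right₀ (pow_ne_zero _ (rad_ne_zero q))).1 h2
  have hrcoe : ∀ g : GQ, g r = (res g ⟨r, hrL⟩ : L) := fun g =>
    (AlgEquiv.restrictNormal_commutes g L ⟨r, hrL⟩).symm
  -- the Sylow subgroup moves `r`
  set K : Subgroup I := Subgroup.comap I.subtype (MulAction.stabilizer (L ≃ₐ[ℚ] L) (⟨r, hrL⟩ : L))
  have hmovesP : (sec t₀.1 : GQ) r ≠ r := by
    intro hfix
    have ht₀K : t₀.1 ∈ K := by
      show (t₀.1 : L ≃ₐ[ℚ] L) • (⟨r, hrL⟩ : L) = ⟨r, hrL⟩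
      rw [← hsec]
      exact Subtype.ext ((hrcoe _).symm.trans hfix)
    have hPK : (P : Subgroup I) ≤ K := by
      intro a ha
      obtain ⟨j, hj⟩ := Subgroup.mem_zpowers_iff.1 (ht₀ ⟨a, ha⟩)
      have := Subtype.ext_iff.1 hj
      simp only [SubgroupClass.coe_zpow] at this
      rw [← this]
      exact K.zpow_mem ht₀K j
    have hK2 : K.index = 2 := by
      rw [Subgroup.index_eq_two_iff]
      refine ⟨⟨resI ⟨τ, hτ⟩, ⟨_, rfl⟩⟩, fun b => ?_⟩
      have hval : ∀ i : I, (i : L ≃ₐ[ℚ] L) • (⟨r, hrL⟩ : L) = ⟨r, hrL⟩ ∨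
          (i : L ≃ₐ[ℚ] L) • (⟨r, hrL⟩ : L) = -(⟨r, hrL⟩ : L) := fun i => by
        refine sq_eq_sq_iff_eq_or_eq_neg.1 ?_
        rw [AlgEquiv.smul_def, ← map_pow]
        have : (⟨r, hrL⟩ : L) ^ 2 = (q : L) := Subtype.ext (by push_cast; exact hr)
        rw [this, map_natCast]
      have hne : (⟨r, hrL⟩ : L) ≠ -⟨r, hrL⟩ := fun h => hr0 (by
        have := congrArg (Subtype.val : L → QBar) h
        exact self_eq_neg.1 (by simpa using this))
      have hτv : (resI ⟨τ, hτ⟩ : L ≃ₐ[ℚ] L) • (⟨r, hrL⟩ : L) = -⟨r, hrL⟩ := by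
        refine (hval ⟨_, ⟨_, rfl⟩⟩).resolve_left fun h => hmove ?_
        rw [hrcoe]; exact congrArg Subtype.val h
      simp only [K, Subgroup.mem_comap, MulAction.mem_stabilizer_iff, Subgroup.coe_subtype,
        Subgroup.coe_mul, mul_smul, hτv]
      rcases hval b with h | h
      · refine Or.inr ⟨h, ?_⟩
        rw [smul_neg, h]; exact hne.symm
      · refine Or.inl ⟨by rw [smul_neg, h, neg_neg], ?_⟩
        rw [h]; exact hne.symm
    have h2 : 2 ∣ (P : Subgroup I).index :=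
      (dvd_trans (dvd_of_eq hK2.symm) (Subgroup.index_dvd_of_le hPK))
    exact P.not_dvd_index h2
  -- normalise the Sylow subgroup by a Frobenius
  obtain ⟨φ, hφ, hφc⟩ := exists_frobenius q
  have hφI : ∀ g : inG q, φ * (g : GQ) * φ⁻¹ ∈ inG q := fun g => by
    have := (mem_inertia_smul_iff (g := φ) (A := padicPlace q)).2 g.2
    rwa [MulAction.mem_stabilizer_iff.1 hφ] at this
  have hφI' : ∀ i : I, res φ * (i : L ≃ₐ[ℚ] L) * (res φ)⁻¹ ∈ I := fun i =>
    ⟨⟨_, hφI (sec i)⟩, by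
      show res (φ * (sec i : GQ) * φ⁻¹) = _
      rw [map_mul, map_mul, map_inv, ← hsec i]; rfl⟩
  have hφI'' : ∀ g : inG q, φ⁻¹ * (g : GQ) * φ ∈ inG q := fun g => by
    have := (mem_inertia_smul_iff (g := φ⁻¹) (A := padicPlace q)).2 g.2
    rw [inv_inv] at this
    rwa [show φ⁻¹ • padicPlace q = padicPlace q by
      rw [inv_smul_eq_iff, MulAction.mem_stabilizer_iff.1 hφ]] at this
  let e : I ≃* I :=
    { toFun := fun i => ⟨_, hφI' i⟩
      invFun := fun i => ⟨(res φ)⁻¹ * (i : L ≃ₐ[ℚ] L) * res φ, ⟨⟨_, hφI'' (sec i)⟩, by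
        show res (φ⁻¹ * (sec i : GQ) * φ) = _
        rw [map_mul, map_mul, map_inv, ← hsec i]; rfl⟩⟩
      left_inv := fun i => Subtype.ext (by
        show (res φ)⁻¹ * (res φ * (i : L ≃ₐ[ℚ] L) * (res φ)⁻¹) * res φ = i
        group)
      right_inv := fun i => Subtype.ext (by
        show res φ * ((res φ)⁻¹ * (i : L ≃ₐ[ℚ] L) * res φ) * (res φ)⁻¹ = i
        group)
      map_mul' := fun a b => Subtype.ext (by
        show res φ * ((a : L ≃ₐ[ℚ] L) * b) * (res φ)⁻¹ =
          res φ * (a : L ≃ₐ[ℚ] L) * (res φ)⁻¹ * (res φ * (b : L ≃ₐ[ℚ] L) * (res φ)⁻¹)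
        group) }
  let P' : Sylow 2 I := P.comapOfInjective e.symm.toMonoidHom e.symm.injective
    (by rw [MonoidHom.range_eq_top.2 e.symm.surjective]; exact le_top)
  obtain ⟨i, hi⟩ := MulAction.exists_smul_eq I P' P
  have hmem : i * e t₀.1 * i⁻¹ ∈ (P : Subgroup I) := by
    have h1 : e t₀.1 ∈ (P' : Subgroup I) := by
      show e.symm (e t₀.1) ∈ (P : Subgroup I)
      rw [MulEquiv.symm_apply_apply]; exact t₀.2
    have h2 : i * e t₀.1 * i⁻¹ ∈ ((i • P' : Sylow 2 I) : Subgroup I) := by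
      show i * e t₀.1 * i⁻¹ ∈ MulAut.conj i • (P' : Subgroup I)
      exact Subgroup.smul_mem_pointwise_smul _ _ _ h1
    rwa [hi] at h2
  have hfr : zI (e t₀.1) = zI t₀.1 ^ q := by
    have e1 : e t₀.1 = ⟨resI ⟨_, hφI (sec t₀.1)⟩, ⟨_, rfl⟩⟩ := Subtype.ext (by
      show res φ * (t₀.1 : L ≃ₐ[ℚ] L) * (res φ)⁻¹ = res (φ * (sec t₀.1 : GQ) * φ⁻¹)
      rw [map_mul, map_mul, map_inv, ← hsec]; rfl)
    rw [e1, hzI]
    exact hfrobz φ hφ hφc (sec t₀.1) ⟨_, hφI (sec t₀.1)⟩ rfl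
  have hkey : i * e t₀.1 * i⁻¹ = t₀.1 ^ q := by
    have h := hinjP (a₁ := ⟨_, hmem⟩) (a₂ := t₀ ^ q) ?_
    · exact congrArg Subtype.val h
    show zI (i * e t₀.1 * i⁻¹) = zI (t₀.1 ^ q)
    rw [map_mul, map_mul, map_pow, hfr, mul_comm (zI i), mul_assoc, ← map_mul, mul_inv_cancel,
      map_one, mul_one]
  refine ⟨(sec i : GQ) * φ, sec t₀.1, (decG q).mul_mem (inG_le_decG q (sec i).2) hφ, fun x hx => ?_,
    (sec t₀.1).2, hmovesP, fun y hy => ?_⟩
  · rw [AlgEquiv.mul_apply, show (sec i : GQ) (φ x) - x ^ q =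
      ((sec i : GQ) (φ x) - φ x) + (φ x - x ^ q) by ring]
    exact nrm_add_lt_of_lt q (nrm_sub_lt_one_of_mem_inG q (sec i).2
      ((nrm_map q hφ x).trans_le hx)) (hφc x hx)
  · have heq : res ((sec i : GQ) * φ * sec t₀.1) = res ((sec t₀.1 : GQ) ^ q * ((sec i : GQ) * φ)) := by
      have h := congrArg (Subtype.val : I → L ≃ₐ[ℚ] L) hkey
      simp only [Subgroup.coe_mul, Subgroup.coe_inv, Subgroup.coe_pow] at h
      simp only [map_mul, map_pow]
      show res (sec i : GQ) * res φ * res (sec t₀.1 : GQ) = _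
      rw [show res (sec i : GQ) = (i : L ≃ₐ[ℚ] L) from hsec i,
        show res (sec t₀.1 : GQ) = (t₀.1 : L ≃ₐ[ℚ] L) from hsec t₀.1, ← h]
      show (i : L ≃ₐ[ℚ] L) * res φ * (t₀.1 : L ≃ₐ[ℚ] L) =
        (i : L ≃ₐ[ℚ] L) * (res φ * (t₀.1 : L ≃ₐ[ℚ] L) * (res φ)⁻¹) * (i : L ≃ₐ[ℚ] L)⁻¹ *
          ((i : L ≃ₐ[ℚ] L) * res φ)
      group
    have h2 := congrArg (fun g : L ≃ₐ[ℚ] L => ((g ⟨y, hy⟩ : L) : QBar)) heq
    exact ((AlgEquiv.restrictNormal_commutes ((sec i : GQ) * φ * (sec t₀.1 : GQ)) L ⟨y, hy⟩).symm.trans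
      h2).trans (AlgEquiv.restrictNormal_commutes _ L ⟨y, hy⟩)

/-- **Existence at every place over an odd prime.** -/
theorem exists_tamePair (hq2 : q ≠ 2) {A : ValuationSubring QBar} (hA : A.LiesOverPrime q) :
    ∃ s t : GQ, IsTamePair A q s t := by
  classical
  haveI : IsGalois ℚ QBar := qBar_isGalois
  set B := padicPlace q
  obtain ⟨r, hr⟩ := IsAlgClosed.exists_pow_nat_eq (q : QBar) two_pos
  obtain ⟨g, hg⟩ := exists_smul_eq (Fermat.Agent.CFT.Local.padicPlace_liesOverPrime q) hA hq.out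
  let ι := {L : IntermediateField ℚ QBar // FiniteDimensional ℚ L ∧ Normal ℚ L ∧ r ∈ L}
  let S : ι → Set (GQ × GQ) := fun L =>
    ((Prod.fst ⁻¹' {σ : GQ | σ • B = B ∧ ∀ x ∈ B, σ x - x ^ q ∈ B.nonunits}) ∩
      (Prod.snd ⁻¹' ({σ : GQ | σ • B = B ∧ ∀ x ∈ B, σ x - x ∈ B.nonunits} ∩
        {σ : GQ | σ r ∈ ({r}ᶜ : Set QBar)}))) ∩
      ⋂ y ∈ L.1, (fun st : GQ × GQ => (st.1 * st.2)⁻¹ * (st.2 ^ q * st.1)) ⁻¹'
        {σ : GQ | σ y ∈ ({y} : Set QBar)}
  have hclosed : ∀ L, IsClosed (S L) := fun L =>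
    (((isClosed_congr B (· ^ q)).preimage continuous_fst).inter
      (((isClosed_congr B id).inter (isClosed_setOf_apply r _)).preimage continuous_snd)).inter
      (isClosed_iInter fun y => isClosed_iInter fun _ => (isClosed_setOf_apply y _).preimage
        ((((continuous_fst.mul continuous_snd).inv).mul
          ((continuous_snd.pow q).mul continuous_fst))))
  have hne : ∀ L, (S L).Nonempty := by
    rintro ⟨L, hL, hLn, hrL⟩
    haveI := hL
    haveI := hLn
    obtain ⟨s, t, hs, hsc, ht, htr, heq⟩ := exists_pair_level q hq2 hr L hrL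
    refine ⟨(s, t), ⟨⟨MulAction.mem_stabilizer_iff.1 hs, fun x hx =>
      (mem_nonunits_iff q).mpr (hsc x ((mem_place_iff q).mp hx))⟩,
      mem_inertia_iff_forall_mem.1 ht, htr⟩, ?_⟩
    simp only [Set.mem_iInter]
    intro y hy
    show ((s * t)⁻¹ * (t ^ q * s)) y = y
    rw [AlgEquiv.mul_apply, ← heq y hy, ← AlgEquiv.mul_apply, inv_mul_cancel, AlgEquiv.one_apply]
  haveI : Nonempty ι := by
    obtain ⟨U, -, -, -⟩ : ∃ U : Subgroup GQ, True ∧ True ∧ True := ⟨⊤, trivial, trivial, trivial⟩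
    haveI : FiniteDimensional ℚ (IntermediateField.adjoin ℚ {r}) :=
      IntermediateField.adjoin.finiteDimensional (Algebra.IsIntegral.isIntegral r)
    exact ⟨⟨IntermediateField.normalClosure ℚ (IntermediateField.adjoin ℚ {r}) QBar,
      normalClosure.is_finiteDimensional ℚ _ QBar, normalClosure.normal ℚ _ QBar,
      IntermediateField.le_normalClosure _ (IntermediateField.mem_adjoin_simple_self ℚ r)⟩⟩
  have hdir : Directed (· ⊇ ·) S := by
    rintro ⟨L, hL, hLn, hrL⟩ ⟨L', hL', hLn', -⟩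
    haveI := hL; haveI := hL'; haveI := hLn; haveI := hLn'
    refine ⟨⟨L ⊔ L', IntermediateField.finiteDimensional_sup L L',
      @IntermediateField.normal_sup ℚ QBar _ _ _ L L' hLn hLn', (le_sup_left : L ≤ L ⊔ L') hrL⟩, ?_, ?_⟩
    all_goals
      rintro st ⟨h1, h2⟩
      simp only [Set.mem_iInter] at h2
      refine ⟨h1, ?_⟩
      simp only [Set.mem_iInter]
    · exact fun y hy => h2 y ((le_sup_left : L ≤ L ⊔ L') hy)
    · exact fun y hy => h2 y ((le_sup_right : L' ≤ L ⊔ L') hy)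
  obtain ⟨⟨s, t⟩, hst⟩ := IsCompact.nonempty_iInter_of_directed_nonempty_isCompact_isClosed S hdir
    hne (fun L => (hclosed L).isCompact) hclosed
  simp only [Set.mem_iInter] at hst
  obtain ⟨⟨hs, ht, htr⟩, -⟩ := hst (Classical.arbitrary ι)
  have hrel : s * t = t ^ q * s := by
    refine AlgEquiv.ext fun y => ?_
    haveI : FiniteDimensional ℚ (IntermediateField.adjoin ℚ {r, y}) :=
      IntermediateField.finiteDimensional_adjoin fun x _ => Algebra.IsIntegral.isIntegral x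
    have hmem := IntermediateField.le_normalClosure (IntermediateField.adjoin ℚ {r, y})
    obtain ⟨-, h⟩ := hst ⟨IntermediateField.normalClosure ℚ (IntermediateField.adjoin ℚ {r, y}) QBar,
      normalClosure.is_finiteDimensional ℚ _ QBar, normalClosure.normal ℚ _ QBar,
      hmem (IntermediateField.subset_adjoin ℚ _ (Set.mem_insert r _))⟩
    simp only [Set.mem_iInter] at h
    have h' : ((s * t)⁻¹ * (t ^ q * s)) y = y :=
      h y (hmem (IntermediateField.subset_adjoin ℚ _ (Set.mem_insert_of_mem r rfl)))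
    calc (s * t) y = (s * t) (((s * t)⁻¹ * (t ^ q * s)) y) := by rw [h']
      _ = _ := by rw [← AlgEquiv.mul_apply, mul_inv_cancel_left]
  subst hg
  refine ⟨g * s * g⁻¹, g * t * g⁻¹, isFrobeniusAt_conj (isFrobeniusAt_iff_forall_mem.2 hs),
    mem_inertia_smul_iff.2 (mem_inertia_iff_forall_mem.2 ht), ?_, fun x hx h => ?_⟩
  · rw [conj_pow, show g * s * g⁻¹ * (g * t * g⁻¹) = g * (s * t) * g⁻¹ by group, hrel]
    group
  · have hgx : g⁻¹ x = r ∨ g⁻¹ x = -r :=
      sq_eq_sq_iff_eq_or_eq_neg.1 (by rw [← map_pow, hx, map_natCast, hr])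
    have hfix : t (g⁻¹ x) = g⁻¹ x := by
      have := congrArg (fun z => g⁻¹ z) h
      simp only [← AlgEquiv.mul_apply] at this
      rwa [show g⁻¹ * (g * t * g⁻¹) = t * g⁻¹ by group, AlgEquiv.mul_apply] at this
    apply htr
    rcases hgx with e | e <;> rw [e] at hfix
    · exact hfix
    · rw [map_neg] at hfix; exact neg_injective hfix

end Fermat.Agent.RT.Two.Recip

end
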