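import Fermat.Agent.RT.Two.Recip.Kummer

/-!
# Pairings on orbits of at most three points are sums of rational symbols
-/

set_option autoImplicit false

noncomputable section

namespace Fermat.Agent.RT.Two.Recip

open Fermat.Agent.Arith MulAction

variable {F : Type*} [Field F]

/-- The sums of products of two rational quadratic characters, modulo coboundaries. -/
def symb : Submodule F (GQ → GQ → F) :=
  Submodule.span F (Set.range fun ab : ℚˣ × ℚˣ =>
    cup (phi (algebraMap ℚ QBar (ab.1 : ℚ))) (phi (algebraMap ℚ QBar (ab.2 : ℚ)))) ⊔ cob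

theorem cup_mem_symb {a b : ℚ} (ha : a ≠ 0) (hb : b ≠ 0) :
    cup (phi (algebraMap ℚ QBar a)) (phi (algebraMap ℚ QBar b)) ∈ symb (F := F) :=
  Submodule.mem_sup_left (Submodule.subset_span ⟨(Units.mk0 a ha, Units.mk0 b hb), rfl⟩)

theorem cob_le_symb : cob ≤ symb (F := F) := le_sup_right

variable {X : Type*} [Fintype X] [MulAction GQ X] {x₀ : X} (T : Transversal x₀)

/-- Fixed by the stabiliser. -/
def IsFix (x₀ : X) (a : QBar) : Prop := ∀ g : GQ, g • x₀ = x₀ → g a = a

omit [Fintype X] in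
theorem isFix_rat (t : ℚ) : IsFix x₀ (algebraMap ℚ QBar t) := fun g _ => g.commutes t

theorem tProd_congr {χ χ' ψ ψ' : GQ → F} (h : ∀ g, g • x₀ = x₀ → χ g = χ' g)
    (h' : ∀ g, g • x₀ = x₀ → ψ g = ψ' g) : tProd T χ ψ = tProd T χ' ψ' := by
  funext g k
  exact Finset.sum_congr rfl fun x _ => by
    simp only [h _ (T.part_mem g x), h' _ (T.part_mem k _)]

theorem tProd_add_left (χ χ' ψ : GQ → F) :
    tProd T (χ + χ') ψ = tProd T χ ψ + tProd T χ' ψ := by
  funext g k; simp [tProd_apply, add_mul, Finset.sum_add_distrib]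

theorem tProd_add_right (χ ψ ψ' : GQ → F) :
    tProd T χ (ψ + ψ') = tProd T χ ψ + tProd T χ ψ' := by
  funext g k; simp [tProd_apply, mul_add, Finset.sum_add_distrib]

theorem tProd_sum_smul {ι κ : Type*} (s : Finset ι) (t : Finset κ) (l : ι → F) (u : κ → F)
    (χ : ι → GQ → F) (ψ : κ → GQ → F) :
    tProd T (∑ i ∈ s, l i • χ i) (∑ j ∈ t, u j • ψ j) =
      ∑ i ∈ s, ∑ j ∈ t, (l i * u j) • tProd T (χ i) (ψ j) := by
  funext g k
  simp only [tProd_apply, Finset.sum_apply, Pi.smul_apply, smul_eq_mul, Finset.sum_mul_sum]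
  rw [Finset.sum_comm]
  refine Finset.sum_congr rfl fun i _ => ?_
  rw [Finset.sum_comm]
  refine Finset.sum_congr rfl fun j _ => ?_
  rw [Finset.mul_sum]
  exact Finset.sum_congr rfl fun x _ => by ring

/-- The symbol of two fixed numbers is a sum of rational symbols. -/
def Good (F : Type*) [Field F] (T : Transversal x₀) (a b : QBar) : Prop :=
  tProd T (phi (F := F) a) (phi b) ∈ symb

variable [CharP F 2] (hX : IsFiniteAction X)

theorem good_mul_left {a a' b : QBar} (ha0 : a ≠ 0) (ha0' : a' ≠ 0) (ha : IsFix x₀ a)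
    (ha' : IsFix x₀ a') (h : Good F T a b) (h' : Good F T a' b) : Good F T (a * a') b := by
  rw [Good, tProd_congr T (χ' := phi a + phi a') (ψ' := phi b)
    (fun g hg => phi_mul_arg ha0 ha0' (ha g hg) (ha' g hg)) (fun _ _ => rfl), tProd_add_left]
  exact Submodule.add_mem _ h h'

theorem good_mul_right {a b b' : QBar} (hb0 : b ≠ 0) (hb0' : b' ≠ 0) (hb : IsFix x₀ b)
    (hb' : IsFix x₀ b') (h : Good F T a b) (h' : Good F T a b') : Good F T a (b * b') := by
  rw [Good, tProd_congr T (χ' := phi a) (ψ' := phi b + phi b') (fun _ _ => rfl)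
    (fun g hg => phi_mul_arg hb0 hb0' (hb g hg) (hb' g hg)), tProd_add_right]
  exact Submodule.add_mem _ h h'

omit [CharP F 2] in
theorem good_congr_right {a b b' : QBar}
    (h : ∀ g, g • x₀ = x₀ → phi (F := F) b g = phi b' g) (hg : Good F T a b') : Good F T a b := by
  rwa [Good, tProd_congr T (χ' := phi a) (ψ' := phi b') (fun _ _ => rfl) h]

omit [CharP F 2] in
theorem good_congr_left {a a' b : QBar}
    (h : ∀ g, g • x₀ = x₀ → phi (F := F) a g = phi a' g) (hg : Good F T a' b) : Good F T a b := by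
  rwa [Good, tProd_congr T (χ' := phi a') (ψ' := phi b) h (fun _ _ => rfl)]

theorem phi_inv_eq {b : QBar} (hb0 : b ≠ 0) {g : GQ} (hb : g b = b) :
    phi (F := F) b⁻¹ g = phi b g := by
  have hsq : (b⁻¹ * b⁻¹) = b⁻¹ ^ 2 := (sq _).symm
  rw [show b⁻¹ = b * (b⁻¹ ^ 2) by field_simp,
    phi_mul_arg hb0 (pow_ne_zero 2 (inv_ne_zero hb0)) hb (by rw [map_pow, map_inv₀, hb]),
    phi_sq _ (by rw [map_inv₀, hb]), add_zero]

include hX in
theorem good_symm {a b : QBar} (ha : IsFix x₀ a) (hb : IsFix x₀ b) (h : Good F T a b) :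
    Good F T b a := by
  set f : GQ → F := fun x => phi a x * phi b x
  have hf : f ∈ finLvl := finLvl_of_eq {root a, root b} fun g g' h => by
    simp [f, phi, flip, h (root a) (by simp), h (root b) (by simp)]
  have e : tProd T (phi (F := F) b) (phi a) = cobMap (tFun T f) - tProd T (phi a) (phi b) := by
    funext g k
    simp only [Pi.sub_apply, cobMap_tFun, tProd_apply, ← Finset.sum_sub_distrib]
    refine Finset.sum_congr rfl fun x _ => ?_
    rw [cobMap_prod_of_hom (phi_mul (ha _ (T.part_mem g x)) (ha _ (T.part_mem k _)))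
      (phi_mul (hb _ (T.part_mem g x)) (hb _ (T.part_mem k _)))]
    ring
  rw [Good, e]
  exact Submodule.sub_mem _ (cob_le_symb (cobMap_mem (tFun_mem hX T hf))) h

include hX in
theorem good_rat_right {a : QBar} (ha0 : a ≠ 0) (ha : IsFix x₀ a) {t : ℚ} (ht : t ≠ 0) :
    Good F T a (algebraMap ℚ QBar t) := by
  obtain ⟨N, hN⟩ := tNorm_mem_range T ha
  have hN0 : N ≠ 0 := by
    rintro rfl
    rw [map_zero, tNorm, eq_comm, Finset.prod_eq_zero_iff] at hN
    obtain ⟨x, -, hx⟩ := hN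
    exact ha0 ((map_eq_zero (T.γ x)).1 hx)
  have := tProd_rat_mem (F := F) hX T ha0 ha t
  rw [← hN] at this
  rw [Good, ← sub_add_cancel (tProd T (phi (F := F) a) (phi (algebraMap ℚ QBar t)))
    (cup (phi (algebraMap ℚ QBar N)) (phi (algebraMap ℚ QBar t)))]
  exact Submodule.add_mem _ (cob_le_symb this) (cup_mem_symb hN0 ht)

include hX in
theorem good_rat_left {a : QBar} (ha0 : a ≠ 0) (ha : IsFix x₀ a) {t : ℚ} (ht : t ≠ 0) :
    Good F T (algebraMap ℚ QBar t) a :=
  good_symm T hX ha (isFix_rat t) (good_rat_right T hX ha0 ha ht)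

include hX in
theorem good_steinberg {a b : QBar} (hab : a + b = 1) (ha0 : a ≠ 0) (hb0 : b ≠ 0)
    (ha : IsFix x₀ a) : Good F T b a := by
  obtain ⟨f, hf, h⟩ := steinberg (F := F) hab ha0 hb0
  rw [Good, tProd_eq_cobMap T fun g k hg hk => h g k (ha g hg) (ha k hk)]
  exact cob_le_symb (cobMap_mem (tFun_mem hX T hf))

omit [Fintype X] in
theorem IsFix.mul {a b : QBar} (ha : IsFix x₀ a) (hb : IsFix x₀ b) : IsFix x₀ (a * b) :=
  fun g hg => by rw [map_mul, ha g hg, hb g hg]

omit [Fintype X] in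
theorem IsFix.inv {a : QBar} (ha : IsFix x₀ a) : IsFix x₀ a⁻¹ :=
  fun g hg => by rw [map_inv₀, ha g hg]

omit [Fintype X] in
theorem IsFix.sub {a b : QBar} (ha : IsFix x₀ a) (hb : IsFix x₀ b) : IsFix x₀ (a - b) :=
  fun g hg => by rw [map_sub, ha g hg, hb g hg]

omit [Fintype X] in
theorem IsFix.one : IsFix x₀ (1 : QBar) := fun g _ => map_one g

omit [Fintype X] in
theorem IsFix.neg {a : QBar} (ha : IsFix x₀ a) : IsFix x₀ (-a) :=
  fun g hg => by rw [map_neg, ha g hg]

include hX in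
theorem good_self {b : QBar} (hb0 : b ≠ 0) (hb : IsFix x₀ b) : Good F T b b := by
  by_cases h1 : b = 1
  · subst h1
    simpa using good_rat_right (F := F) T hX one_ne_zero hb (t := 1) one_ne_zero
  have h1b : 1 - b ≠ 0 := sub_ne_zero.2 (Ne.symm h1)
  have hi : 1 - b⁻¹ ≠ 0 := sub_ne_zero.2 fun h => h1 (inv_eq_one.1 h.symm)
  have hneg : Good F T b (-b) := by
    rw [show -b = (1 - b) * (1 - b⁻¹)⁻¹ by
      field_simp
      ring]
    refine good_mul_right T h1b (inv_ne_zero hi) (IsFix.one.sub hb) (IsFix.one.sub hb.inv).inv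
      (good_symm T hX (IsFix.one.sub hb) hb (good_steinberg T hX (by ring) hb0 h1b hb)) ?_
    refine good_congr_right T (b' := 1 - b⁻¹)
      (fun g hg => phi_inv_eq hi ((IsFix.one.sub hb.inv) g hg)) ?_
    refine good_congr_left T (a' := b⁻¹) (fun g hg => (phi_inv_eq hb0 (hb g hg)).symm) ?_
    exact good_symm T hX (IsFix.one.sub hb.inv) hb.inv
      (good_steinberg T hX (by ring) (inv_ne_zero hb0) hi hb.inv)
  have hm : Good F T b (algebraMap ℚ QBar (-1)) := good_rat_right T hX hb0 hb (by norm_num)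
  have e : b = -b * algebraMap ℚ QBar (-1) := by simp
  rw [show Good F T b b = Good F T b (-b * algebraMap ℚ QBar (-1)) by rw [← e]]
  exact good_mul_right T (neg_ne_zero.2 hb0) (by norm_num) hb.neg (isFix_rat _) hneg hm

include hX in
/-- Two numbers of the form `p + q θ`. -/
theorem good_linear {θ : QBar} (hθ : IsFix x₀ θ) (p q u v : ℚ)
    (hA : algebraMap ℚ QBar p + algebraMap ℚ QBar q * θ ≠ 0)
    (hB : algebraMap ℚ QBar u + algebraMap ℚ QBar v * θ ≠ 0) :
    Good F T (algebraMap ℚ QBar p + algebraMap ℚ QBar q * θ)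
      (algebraMap ℚ QBar u + algebraMap ℚ QBar v * θ) := by
  set ι := algebraMap ℚ QBar
  set A := ι p + ι q * θ with hAdef
  set B := ι u + ι v * θ with hBdef
  have hfA : IsFix x₀ A := fun g hg => by simp [A, ι, hθ g hg]
  have hfB : IsFix x₀ B := fun g hg => by simp [B, ι, hθ g hg]
  by_cases hq : q = 0
  · have e : A = ι p := by simp [A, ι, hq]
    rw [e]; exact good_rat_left T hX hB hfB (fun h => hA (by rw [e, h, map_zero]))
  by_cases hv : v = 0
  · have e : B = ι u := by simp [B, ι, hv]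
    rw [e]; exact good_rat_right T hX hA hfA (fun h => hB (by rw [e, h, map_zero]))
  have key : ι v * A - ι q * B = ι (v * p - q * u) := by simp [A, B, ι]; ring
  have hvι : ι v ≠ 0 := (map_ne_zero _).2 hv
  have hqι : ι q ≠ 0 := (map_ne_zero _).2 hq
  by_cases hk : v * p - q * u = 0
  · rw [hk, map_zero, sub_eq_zero] at key
    have e : A = ι (q / v) * B := by rw [map_div₀]; field_simp; linear_combination key
    rw [e]
    exact good_mul_left T ((map_ne_zero _).2 (div_ne_zero hq hv)) hB (isFix_rat _) hfB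
      (good_rat_left T hX hB hfB (div_ne_zero hq hv)) (good_self T hX hB hfB)
  set k := v * p - q * u
  have hkι : ι k ≠ 0 := (map_ne_zero _).2 hk
  set A' := ι (v / k) * A
  set B' := ι (-q / k) * B
  have hc : v / k ≠ 0 ∧ k / v ≠ 0 ∧ -q / k ≠ 0 ∧ k / -q ≠ 0 := by
    simp [hv, hk, hq]
  have hA'0 : A' ≠ 0 := mul_ne_zero ((map_ne_zero _).2 hc.1) hA
  have hB'0 : B' ≠ 0 := mul_ne_zero ((map_ne_zero _).2 hc.2.2.1) hB
  have hfA' : IsFix x₀ A' := (isFix_rat _).mul hfA
  have hfB' : IsFix x₀ B' := (isFix_rat _).mul hfB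
  have hsum : B' + A' = 1 := by
    simp only [A', B', map_div₀, map_neg]
    field_simp
    linear_combination key
  have eA : A = ι (k / v) * A' := by
    simp only [A', ← mul_assoc, ← map_mul]
    rw [show k / v * (v / k) = 1 by field_simp, map_one, one_mul]
  have eB : B = ι (k / -q) * B' := by
    simp only [B', ← mul_assoc, ← map_mul]
    rw [show k / -q * (-q / k) = 1 by field_simp, map_one, one_mul]
  rw [eA]
  refine good_mul_left T ((map_ne_zero _).2 hc.2.1) hA'0 (isFix_rat _) hfA'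
    (good_rat_left T hX hB hfB hc.2.1) ?_
  rw [eB]
  exact good_mul_right T ((map_ne_zero _).2 hc.2.2.2) hB'0 (isFix_rat _) hfB'
    (good_rat_right T hX hA'0 hfA' hc.2.2.2)
    (good_steinberg T hX hsum hB'0 hA'0 hfB')

/-- The field fixed by the stabiliser. -/
def fixF (x₀ : X) : IntermediateField ℚ QBar := IntermediateField.fixedField (stabilizer GQ x₀)

omit [Fintype X] in
theorem mem_fixF {a : QBar} : a ∈ fixF x₀ ↔ IsFix x₀ a :=
  ⟨fun h g hg => h ⟨g, hg⟩, fun h g => h g.1 g.2⟩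

include hX T in
theorem finrank_fixF :
    FiniteDimensional ℚ (fixF x₀) ∧ Module.finrank ℚ (fixF x₀) ≤ Fintype.card X := by
  obtain ⟨L, hL, hLn, hlev⟩ := exists_galois_level (F := ℚ) (x₀ := x₀) hX (Submodule.zero_mem _)
  have : IsGalois ℚ QBar := qBar_isGalois
  have hle : fixF x₀ ≤ L := by
    intro a ha
    rw [← InfiniteGalois.fixedField_fixingSubgroup L]
    exact fun g => mem_fixF.1 ha g.1 (hlev g.1 g.2).1
  have := hL
  have : FiniteDimensional ℚ (fixF x₀) :=
    FiniteDimensional.of_injective (IntermediateField.inclusion hle).toLinearMap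
      (IntermediateField.inclusion hle).injective
  refine ⟨inferInstance, ?_⟩
  rw [← AlgHom.card ℚ (fixF x₀) QBar]
  refine Fintype.card_le_of_surjective
    (fun x => (T.γ x).toAlgHom.comp (fixF x₀).val) fun σ => ?_
  let g : GQ := AlgEquiv.ofBijective (σ.liftNormal QBar)
    ((AlgHom.normal_bijective ℚ QBar QBar (σ.liftNormal QBar)))
  refine ⟨g • x₀, AlgHom.ext fun a => ?_⟩
  show T.γ (g • x₀) (a : QBar) = σ a
  have h2 : ((T.γ (g • x₀))⁻¹ * g) • x₀ = x₀ := by
    rw [mul_smul, inv_smul_eq_iff, T.smul_γ]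
  have h3 : g (a : QBar) = σ a := σ.liftNormal_commutes QBar a
  conv_lhs => rw [← mem_fixF.1 a.2 _ h2]
  rw [← AlgEquiv.mul_apply, mul_inv_cancel_left, h3]

include hX T in
theorem good_of_fix (hcard : Fintype.card X ≤ 3) {a b : QBar} (ha0 : a ≠ 0) (hb0 : b ≠ 0)
    (ha : IsFix x₀ a) (hb : IsFix x₀ b) : Good F T a b := by
  by_cases hrat : ∀ c, IsFix x₀ c → ∃ t : ℚ, algebraMap ℚ QBar t = c
  · obtain ⟨t, rfl⟩ := hrat b hb
    exact good_rat_right T hX ha0 ha ((map_ne_zero _).1 hb0)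
  push Not at hrat
  obtain ⟨θ, hθ, hirr⟩ := hrat
  obtain ⟨hfd, hdim⟩ := finrank_fixF T hX
  have := hfd
  have lin : ∀ c : QBar, c ≠ 0 → IsFix x₀ c → ∃ p q u v : ℚ,
      algebraMap ℚ QBar p + algebraMap ℚ QBar q * θ ≠ 0 ∧
      algebraMap ℚ QBar u + algebraMap ℚ QBar v * θ ≠ 0 ∧
      c * (algebraMap ℚ QBar u + algebraMap ℚ QBar v * θ) =
        algebraMap ℚ QBar p + algebraMap ℚ QBar q * θ := by
    intro c hc0 hc
    let e : Fin 4 → fixF x₀ := ![1, ⟨θ, mem_fixF.2 hθ⟩, ⟨c, mem_fixF.2 hc⟩,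
      ⟨c, mem_fixF.2 hc⟩ * ⟨θ, mem_fixF.2 hθ⟩]
    have hdep : ¬ LinearIndependent ℚ e := fun h => by
      have := h.fintype_card_le_finrank
      simp at this
      omega
    rw [Fintype.linearIndependent_iff] at hdep
    push Not at hdep
    obtain ⟨w, hw, hne⟩ := hdep
    have hw' := congrArg (Subtype.val : fixF x₀ → QBar) hw
    simp [e, Fin.sum_univ_four, Rat.smul_def] at hw'
    have inj : ∀ u v : ℚ, algebraMap ℚ QBar u + algebraMap ℚ QBar v * θ = 0 → u = 0 ∧ v = 0 := by
      intro u v h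
      by_cases hv : v = 0
      · subst hv; simpa using h
      · refine absurd ?_ (hirr (-u / v))
        have hv' : algebraMap ℚ QBar v ≠ 0 := (map_ne_zero _).2 hv
        rw [map_div₀, map_neg]
        field_simp
        linear_combination -h
    have heq : c * (algebraMap ℚ QBar (w 2) + algebraMap ℚ QBar (w 3) * θ) =
        algebraMap ℚ QBar (-w 0) + algebraMap ℚ QBar (-w 1) * θ := by
      simp only [map_neg, eq_ratCast]
      linear_combination hw'
    have hB : algebraMap ℚ QBar (w 2) + algebraMap ℚ QBar (w 3) * θ ≠ 0 := by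
      intro h
      obtain ⟨h2, h3⟩ := inj _ _ h
      rw [h, mul_zero, eq_comm] at heq
      obtain ⟨h0, h1⟩ := inj _ _ heq
      obtain ⟨i, hi⟩ := hne
      fin_cases i <;> simp_all
    exact ⟨_, _, _, _, heq ▸ mul_ne_zero hc0 hB, hB, heq⟩
  obtain ⟨p, q, u, v, hA, hB, hab⟩ := lin a ha0 ha
  obtain ⟨p', q', u', v', hA', hB', hab'⟩ := lin b hb0 hb
  have fix : ∀ s t : ℚ, IsFix x₀ (algebraMap ℚ QBar s + algebraMap ℚ QBar t * θ) := fun s t g hg => by
    rw [map_add, map_mul, g.commutes, g.commutes, hθ g hg]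
  rw [eq_div_iff hB |>.2 hab, eq_div_iff hB' |>.2 hab', div_eq_mul_inv, div_eq_mul_inv]
  refine good_mul_left T hA (inv_ne_zero hB) (fix p q) (fix u v).inv ?_
    (good_congr_left T (fun g hg => phi_inv_eq hB (fix u v g hg)) ?_) <;>
  refine good_mul_right T hA' (inv_ne_zero hB') (fix p' q') (fix u' v').inv
    (good_linear T hX hθ _ _ _ _ (by assumption) hA')
    (good_congr_right T (fun g hg => phi_inv_eq hB' (fix u' v' g hg))
      (good_linear T hX hθ _ _ _ _ (by assumption) hB'))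

include hX in
/-- **A pairing on an orbit of at most three points is a sum of rational symbols.** -/
theorem pair_mem_symb [Finite F] [MulAction.IsPretransitive GQ X] (hcard : Fintype.card X ≤ 3)
    {c d : GQ → X → F} (hc : IsFunCocycle c) (hd : IsFunCocycle d)
    (hc' : ∀ x, (fun g => c g x) ∈ finLvl) (hd' : ∀ x, (fun g => d g x) ∈ finLvl) :
    pair c d ∈ symb := by
  classical
  rcases isEmpty_or_nonempty X with hE | ⟨⟨x₀⟩⟩
  · rw [show pair c d = 0 by funext g h; simp [pair]]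
    exact Submodule.zero_mem _
  choose γ hγ using MulAction.exists_smul_eq GQ x₀
  let T : Transversal x₀ := ⟨γ, hγ⟩
  rw [← sub_add_cancel (pair c d) (tProd T (atPoint c x₀) (atPoint d x₀))]
  refine Submodule.add_mem _ (cob_le_symb (pair_sub_tProd_mem_cob hX T hc hd hc' hd')) ?_
  let := ZMod.algebra F 2
  let bas := Module.finBasis (ZMod 2) F
  let em : ZMod 2 →+* F := algebraMap (ZMod 2) F
  have split : ∀ e : GQ → X → F, IsFunCocycle e → (∀ x, (fun g => e g x) ∈ finLvl) →
      ∃ a : Fin (Module.finrank (ZMod 2) F) → QBar, (∀ i, a i ≠ 0 ∧ IsFix x₀ (a i)) ∧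
        ∀ g, g • x₀ = x₀ → atPoint e x₀ g = (∑ i, bas i • phi (F := F) (a i)) g := by
    intro e he he'
    have h : ∀ i, ∃ a : QBar, a ≠ 0 ∧ IsFix x₀ a ∧ ∀ g, g • x₀ = x₀ →
        em (bas.repr (atPoint e x₀ g) i) = phi (F := F) a g := by
      intro i
      refine exists_phi_eq hX ?_ (fun g _ => ?_) fun g h hg _ => ?_
      · obtain ⟨U, hU, hUo, hinv⟩ := mem_finLvl.1 (he' x₀)
        exact mem_finLvl.2 ⟨U, hU, hUo, fun g u hu => by
          rw [show atPoint e x₀ (g * u) = atPoint e x₀ g from hinv g u hu]⟩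
      · generalize bas.repr (atPoint e x₀ g) i = z
        rcases (show ∀ z : ZMod 2, z = 0 ∨ z = 1 by decide) z with rfl | rfl <;> simp
      · rw [atPoint_mul he hg, map_add, Finsupp.add_apply, map_add]
    choose a h1 h2 h3 using h
    refine ⟨a, fun i => ⟨h1 i, h2 i⟩, fun g hg => ?_⟩
    conv_lhs => rw [← bas.sum_repr (atPoint e x₀ g)]
    rw [Finset.sum_apply]
    refine Finset.sum_congr rfl fun i _ => ?_
    rw [Pi.smul_apply, ← h3 i g hg, smul_eq_mul, Algebra.smul_def, mul_comm]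
  obtain ⟨a, ha, hca⟩ := split c hc hc'
  obtain ⟨b, hb, hdb⟩ := split d hd hd'
  rw [tProd_congr T hca hdb, tProd_sum_smul]
  exact Submodule.sum_mem _ fun i _ => Submodule.sum_mem _ fun j _ =>
    Submodule.smul_mem _ _ (good_of_fix T hX hcard (ha i).1 (hb j).1 (ha i).2 (hb j).2)

end Fermat.Agent.RT.Two.Recip

end
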