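import Fermat.Agent.RT.Two.Recip.Two
import Fermat.Agent.RT.Two.Recip.Span
import Fermat.Agent.RT.Two.Recip.Pair
import Fermat.Prelude.Def_GaloisRep_ComplexConjugation
import Mathlib.NumberTheory.LegendreSymbol.QuadraticReciprocity

/-!
# The product formula for rational symbols

The tame functional at an odd prime, the functional at infinity, and the relation with the symbol
at two: quadratic reciprocity.
-/

set_option autoImplicit false
set_option linter.style.haveILetI false

noncomputable section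

namespace Fermat.Agent.RT.Two.Recip

open Fermat.Agent.Arith

variable {F : Type*} [Field F] [CharP F 2]

/-- The functional of a tame pair. -/
def tameFun (q : ℕ) (s t : GQ) : (GQ → GQ → F) →ₗ[F] F where
  toFun z := z s t + ∑ i ∈ Finset.range q, z (t ^ i) t + z (t ^ q) s + z 1 1
  map_add' a b := by simp only [Pi.add_apply, Finset.sum_add_distrib]; ring
  map_smul' c a := by
    simp only [Pi.smul_apply, smul_eq_mul, ← Finset.mul_sum, RingHom.id_apply]; ring

omit [CharP F 2] in
theorem tameFun_apply (q : ℕ) (s t : GQ) (z : GQ → GQ → F) :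
    tameFun q s t z = z s t + ∑ i ∈ Finset.range q, z (t ^ i) t + z (t ^ q) s + z 1 1 := rfl

theorem natCast_odd {q : ℕ} (hq : Odd q) : (q : F) = 1 := by
  obtain ⟨k, rfl⟩ := hq
  push_cast
  rw [CharTwo.two_eq_zero (R := F), zero_mul, zero_add]

theorem tameFun_cobMap {q : ℕ} (hq : Odd q) {s t : GQ} (h : s * t = t ^ q * s) (f : GQ → F) :
    tameFun q s t (cobMap f) = 0 := by
  have key : ∀ n : ℕ, ∑ i ∈ Finset.range n, cobMap f (t ^ i) t = f 1 + f (t ^ n) + n * f t := by
    intro n
    induction n with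
    | zero => simp [CharTwo.add_self_eq_zero]
    | succ n ih =>
      rw [Finset.sum_range_succ, ih, cobMap_apply, ← pow_succ, Nat.cast_succ]
      linear_combination f (t ^ n) * CharTwo.two_eq_zero (R := F)
  rw [tameFun_apply, key, natCast_odd hq, cobMap_apply, cobMap_apply, cobMap_apply, h, one_mul]
  linear_combination (norm := skip) (f s + f t + f (t ^ q * s) + f (t ^ q) + 2 * f 1) *
    CharTwo.two_eq_zero (R := F)
  ring_nf
  exact neg_add_cancel _

theorem tameFun_cob {q : ℕ} (hq : Odd q) {s t : GQ} (h : s * t = t ^ q * s) {z : GQ → GQ → F}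
    (hz : z ∈ cob) : tameFun q s t z = 0 := by
  obtain ⟨f, -, rfl⟩ := hz
  exact tameFun_cobMap hq h f

theorem phiQ_pow (a : ℚ) (t : GQ) (i : ℕ) : phiQ (F := F) a (t ^ i) = i * phiQ a t := by
  induction i with
  | zero =>
    rw [pow_zero, Nat.cast_zero, zero_mul, phiQ, phi, flip_eq_zero (AlgEquiv.one_apply _)]
  | succ i ih => rw [pow_succ, phiQ_mul_apply, ih, Nat.cast_succ, add_mul, one_mul]

theorem sum_range_cast {q : ℕ} (hq : Odd q) :
    ∑ i ∈ Finset.range q, (i : F) = epsF F (q : ℤ) := by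
  obtain ⟨k, rfl⟩ := hq
  have h : ∀ n : ℕ, ∑ i ∈ Finset.range (2 * n + 1), (i : F) = n := by
    intro n
    induction n with
    | zero => simp
    | succ n ih =>
      rw [show 2 * (n + 1) + 1 = 2 * n + 1 + 1 + 1 by ring, Finset.sum_range_succ,
        Finset.sum_range_succ, ih]
      push_cast
      linear_combination (2 * (n : F) + 1) * CharTwo.two_eq_zero (R := F)
  rw [h k, epsF]
  rcases Nat.even_or_odd k with ⟨m, rfl⟩ | ⟨m, rfl⟩
  · rw [if_neg (by push_cast; omega)]
    push_cast
    exact CharTwo.add_self_eq_zero _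
  · rw [if_pos (by push_cast; omega)]
    push_cast
    rw [CharTwo.two_eq_zero (R := F), zero_mul, zero_add]

/-- The functional on a symbol. -/
theorem tameFun_sy {q : ℕ} (hq : Odd q) (s t : GQ) (a b : ℚ) :
    tameFun q s t (sy (F := F) a b) = phiQ a s * phiQ b t + phiQ a t * phiQ b s +
      epsF F (q : ℤ) * (phiQ a t * phiQ b t) := by
  rw [tameFun_apply]
  simp only [sy, cup, phiQ_pow, natCast_odd hq, one_mul, mul_assoc, ← Finset.sum_mul,
    sum_range_cast hq]
  have h1 : phiQ (F := F) a 1 = 0 := by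
    have := phiQ_pow (F := F) a 1 0
    simpa using this
  rw [h1, zero_mul, add_zero]
  ring

/-- The Legendre symbol as an element of `F`. -/
def legF (F : Type*) [Field F] (q : ℕ) [Fact q.Prime] (a : ℤ) : F :=
  if legendreSym q a = 1 then 0 else 1

variable {q : ℕ} [hq : Fact q.Prime] {A : ValuationSubring QBar}

omit [CharP F 2] in
theorem two_root_notMem (hA : A.LiesOverPrime q) (hq2 : q ≠ 2) {a : ℤ} (ha : ¬ (q : ℤ) ∣ a)
    {x : QBar} (hx : x ^ 2 = (a : QBar)) : x ∈ A ∧ 2 * x ∉ A.nonunits := by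
  have hmem : x ∈ A := mem_of_isIntegral A
    (IsIntegral.of_pow two_pos (by rw [hx]; exact isIntegral_intCast a))
  refine ⟨hmem, fun h => ha ?_⟩
  have h4 : ((4 * a : ℤ) : QBar) ∈ A.nonunits := by
    rw [show ((4 * a : ℤ) : QBar) = 2 * x * (2 * x) by push_cast; rw [← hx]; ring]
    rw [ValuationSubring.mem_nonunits_iff, map_mul]
    rw [ValuationSubring.mem_nonunits_iff] at h
    exact mul_lt_one_of_nonneg_of_lt_one_left zero_le h h.le
  have h5 := (intCast_mem_nonunits_iff hA hq.out (4 * a)).1 h4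
  have hqp : Prime (q : ℤ) := Nat.prime_iff_prime_int.1 hq.out
  rcases hqp.dvd_mul.1 h5 with h6 | h6
  · exfalso
    have : q ∣ 2 ^ 2 := by exact_mod_cast h6
    exact hq2 ((Nat.prime_dvd_prime_iff_eq hq.out Nat.prime_two).1 (hq.out.dvd_of_dvd_pow this))
  · exact h6

omit [CharP F 2] in
theorem phiQ_inertia (hA : A.LiesOverPrime q) (hq2 : q ≠ 2) {a : ℤ} (ha : ¬ (q : ℤ) ∣ a)
    {t : GQ} (ht : t ∈ A.inertiaSubgroupIn ℚ) : phiQ (F := F) (a : ℚ) t = 0 := by
  have hx : root (algebraMap ℚ QBar (a : ℚ)) ^ 2 = (a : QBar) := by rw [root_sq, map_intCast]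
  obtain ⟨hmem, hnot⟩ := two_root_notMem hA hq2 ha hx
  refine flip_eq_zero ((apply_eq_or_neg hx (map_intCast t a)).resolve_right fun h => hnot ?_)
  have := (mem_inertia_iff_forall_mem.1 ht).2 _ hmem
  rw [h, show -root (algebraMap ℚ QBar (a : ℚ)) - root (algebraMap ℚ QBar (a : ℚ)) =
    -(2 * root (algebraMap ℚ QBar (a : ℚ))) by ring] at this
  rwa [ValuationSubring.mem_nonunits_iff, Valuation.map_neg, ← ValuationSubring.mem_nonunits_iff]
    at this

omit [CharP F 2] in
theorem phiQ_frobenius (hA : A.LiesOverPrime q) (hq2 : q ≠ 2) {a : ℤ} (ha : ¬ (q : ℤ) ∣ a)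
    {s : GQ} (hs : A.IsFrobeniusAt s q) : phiQ (F := F) (a : ℚ) s = legF F q a := by
  classical
  set x := root (algebraMap ℚ QBar (a : ℚ))
  have hx : x ^ 2 = (a : QBar) := by rw [root_sq, map_intCast]
  obtain ⟨hmem, hnot⟩ := two_root_notMem hA hq2 ha hx
  have hn := neg_ne_self (x := x) (fun h => hnot (by
    rw [h, mul_zero, ValuationSubring.mem_nonunits_iff, map_zero]; exact zero_lt_one))
  obtain ⟨k, hk⟩ : ∃ k, q = 2 * k + 1 := hq.out.odd_of_ne_two hq2
  have hleg : (legendreSym q a : ZMod q) = ((a ^ k : ℤ) : ZMod q) := by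
    rw [legendreSym.eq_pow, show q / 2 = k by omega]; push_cast; rfl
  rw [ZMod.intCast_eq_intCast_iff_dvd_sub] at hleg
  obtain ⟨j, hj⟩ := hleg
  have hq' : x ^ q = x * (legendreSym q a : QBar) + x * ((q : QBar) * (j : QBar)) := by
    have e : (a : QBar) ^ k - (legendreSym q a : QBar) = (q : QBar) * (j : QBar) := by
      exact_mod_cast congrArg (fun n : ℤ => (n : QBar)) hj
    have e2 : x ^ q = x * (a : QBar) ^ k := by rw [hk, pow_succ, pow_mul, hx]; ring
    linear_combination e2 + x * e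
  have hqj : x * ((q : QBar) * (j : QBar)) ∈ A.nonunits := by
    have h1 : ((q * j : ℤ) : QBar) ∈ A.nonunits :=
      (intCast_mem_nonunits_iff hA hq.out (q * j)).2 (dvd_mul_right _ _)
    rw [show (q : QBar) * (j : QBar) = ((q * j : ℤ) : QBar) by push_cast; ring]
    rw [ValuationSubring.mem_nonunits_iff, map_mul]
    rw [ValuationSubring.mem_nonunits_iff] at h1
    exact lt_of_le_of_lt (mul_le_of_le_one_left' ((A.valuation_le_one_iff _).2 hmem)) h1
  have hfrob := (isFrobeniusAt_iff_forall_mem.1 hs).2 x hmem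
  have hsub : s x - x * (legendreSym q a : QBar) ∈ A.nonunits := by
    rw [show s x - x * (legendreSym q a : QBar) = (s x - x ^ q) + x * ((q : QBar) * (j : QBar)) by
      rw [hq']; ring, ValuationSubring.mem_nonunits_iff]
    exact lt_of_le_of_lt (A.valuation.map_add _ _) (max_lt hfrob hqj)
  have hneg : ∀ y : QBar, -y ∈ A.nonunits → y ∈ A.nonunits := fun y hy => by
    rwa [ValuationSubring.mem_nonunits_iff, Valuation.map_neg,
      ← ValuationSubring.mem_nonunits_iff] at hy
  have ha0 : (a : ZMod q) ≠ 0 := fun h => ha ((ZMod.intCast_zmod_eq_zero_iff_dvd a q).1 h)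
  rcases apply_eq_or_neg (g := s) hx (map_intCast s a) with h | h <;>
    rcases legendreSym.eq_one_or_neg_one q ha0 with h1 | h1 <;> rw [h1, h] at hsub
  · rw [legF, if_pos h1]; exact flip_eq_zero h
  · exact absurd (by rw [show 2 * x = x - x * ((-1 : ℤ) : QBar) by push_cast; ring]; exact hsub) hnot
  · refine absurd (hneg _ ?_) hnot
    rw [show -(2 * x) = -x - x * ((1 : ℤ) : QBar) by push_cast; ring]; exact hsub
  · rw [legF, if_neg (by rw [h1]; decide)]
    exact flip_eq_one (by rw [h]; exact hn)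

/-- The functional at infinity. -/
def infFun : (GQ → GQ → F) →ₗ[F] F where
  toFun z := z complexConjugation complexConjugation + z 1 1
  map_add' a b := by simp only [Pi.add_apply]; ring
  map_smul' c a := by simp only [Pi.smul_apply, smul_eq_mul, RingHom.id_apply]; ring

omit [CharP F 2] in
theorem infFun_apply (z : GQ → GQ → F) :
    infFun z = z complexConjugation complexConjugation + z 1 1 := rfl

theorem infFun_cob {z : GQ → GQ → F} (hz : z ∈ cob) : infFun z = 0 := by
  obtain ⟨f, -, rfl⟩ := hz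
  rw [infFun_apply, cobMap_apply, cobMap_apply, complexConjugation_mul_self, one_mul]
  linear_combination (f complexConjugation + 2 * f 1) * CharTwo.two_eq_zero (R := F)

omit [CharP F 2] in
theorem infFun_sy (a b : ℚ) :
    infFun (sy (F := F) a b) = phiQ a complexConjugation * phiQ b complexConjugation := by
  have h1 : phiQ (F := F) a 1 = 0 := by
    rw [phiQ, phi, flip_eq_zero (AlgEquiv.one_apply _)]
  rw [infFun_apply]
  simp only [sy, cup, h1, zero_mul, add_zero]

omit [CharP F 2] in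
theorem phiQ_complexConjugation_pos {a : ℚ} (ha : 0 ≤ a) :
    phiQ (F := F) a complexConjugation = 0 := by
  refine flip_eq_zero (complexEmbedding.injective ?_)
  show complexEmbedding _ = complexEmbedding _
  rw [complexEmbedding_complexConjugation]
  have h2 : complexEmbedding (root (algebraMap ℚ QBar a)) ^ 2 = ((Real.sqrt a : ℝ) : ℂ) ^ 2 := by
    rw [← map_pow, root_sq, AlgHom.commutes, ← Complex.ofReal_pow,
      Real.sq_sqrt (by exact_mod_cast ha)]
    simp
  rcases sq_eq_sq_iff_eq_or_eq_neg.1 h2 with e | e <;> rw [e] <;> simp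

omit [CharP F 2] in
theorem phiQ_complexConjugation_neg_one : phiQ (F := F) (-1) complexConjugation = 1 := by
  refine flip_eq_one fun h => ?_
  have h2 : complexEmbedding (root (algebraMap ℚ QBar (-1))) ^ 2 = -1 := by
    rw [← map_pow, root_sq, AlgHom.commutes]; simp
  have := congrArg complexEmbedding h
  rw [complexEmbedding_complexConjugation, Complex.conj_eq_iff_im] at this
  have h3 := congrArg Complex.re h2
  rw [sq, Complex.mul_re, this] at h3
  simp at h3
  nlinarith [sq_nonneg (complexEmbedding (root (algebraMap ℚ QBar (-1)))).re]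

/-! ### The product formula -/

/-- A choice of tame pairs at the odd primes. -/
def IsPairChoice (pr : ℕ → GQ × GQ) : Prop :=
  ∀ p : ℕ, p.Prime → p ≠ 2 →
    ∃ A : ValuationSubring QBar, A.LiesOverPrime p ∧ IsTamePair A p (pr p).1 (pr p).2

variable (pr : ℕ → GQ × GQ)

/-- The total functional of a finite set of primes. -/
def totalFun (T : Finset ℕ) : (GQ → GQ → F) →ₗ[F] F :=
  (∑ p ∈ T, tameFun p (pr p).1 (pr p).2) + infFun

omit [CharP F 2] hq in
theorem totalFun_apply (T : Finset ℕ) (z : GQ → GQ → F) :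
    totalFun pr T z = (∑ p ∈ T, tameFun p (pr p).1 (pr p).2 z) + infFun z := by
  simp [totalFun, LinearMap.sum_apply]

/-- Odd primes. -/
def OddPrimes (T : Finset ℕ) : Prop := ∀ p ∈ T, p.Prime ∧ p ≠ 2

/-- The product formula for a two-variable function. -/
def Formula (z : GQ → GQ → F) : Prop :=
  ∃ T₀ : Finset ℕ, OddPrimes T₀ ∧ ∀ T : Finset ℕ, T₀ ⊆ T → OddPrimes T →
    z - totalFun pr T z • base F ∈ cobTwo

variable {pr}

omit hq [CharP F 2] in
theorem Formula.add {z z' : GQ → GQ → F} (h : Formula pr z) (h' : Formula pr z') :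
    Formula pr (z + z') := by
  obtain ⟨T₀, hT, h⟩ := h
  obtain ⟨T₀', hT', h'⟩ := h'
  refine ⟨T₀ ∪ T₀', fun p hp => (Finset.mem_union.1 hp).elim (hT p) (hT' p), fun T hsub ho => ?_⟩
  have := Submodule.add_mem _ (h T (Finset.union_subset_left hsub) ho)
    (h' T (Finset.union_subset_right hsub) ho)
  rwa [map_add, add_smul, add_sub_add_comm]

omit hq [CharP F 2] in
theorem Formula.smul {z : GQ → GQ → F} (c : F) (h : Formula pr z) : Formula pr (c • z) := by
  obtain ⟨T₀, hT, h⟩ := h
  refine ⟨T₀, hT, fun T hsub ho => ?_⟩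
  have := Submodule.smul_mem _ c (h T hsub ho)
  rwa [map_smul, smul_eq_mul, mul_smul, ← smul_sub]

omit hq in
theorem formula_cob (hpr : IsPairChoice pr) {z : GQ → GQ → F} (hz : z ∈ cob) : Formula pr z := by
  refine ⟨∅, by simp [OddPrimes], fun T _ ho => ?_⟩
  have h0 : totalFun pr T z = 0 := by
    rw [totalFun_apply, infFun_cob hz, add_zero]
    refine Finset.sum_eq_zero fun p hp => ?_
    obtain ⟨A, -, hst⟩ := hpr p (ho p hp).1 (ho p hp).2
    exact tameFun_cob ((ho p hp).1.odd_of_ne_two (ho p hp).2) hst.rel hz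
  rw [h0, zero_smul, sub_zero]
  exact cob_le_cobTwo hz

/-- The generators. -/
def IsGen (a : ℤ) : Prop := a = -1 ∨ ∃ p : ℕ, p.Prime ∧ a = p

omit hq in
theorem tameFun_gen (hpr : IsPairChoice pr) {p : ℕ} [Fact p.Prime] (hp2 : p ≠ 2) {a b : ℤ}
    (ha : IsGen a) (hb : IsGen b) :
    tameFun p (pr p).1 (pr p).2 (sy (F := F) (a : ℚ) (b : ℚ)) =
      if a = p then (if b = p then epsF F (p : ℤ) else legF F p b)
      else (if b = p then legF F p a else 0) := by
  classical
  obtain ⟨A, hA, hst⟩ := hpr p Fact.out hp2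
  have hnd : ∀ c : ℤ, IsGen c → c ≠ p → ¬ (p : ℤ) ∣ c := by
    rintro c (rfl | ⟨l, hl, rfl⟩) hne h
    · exact (Fact.out : p.Prime).ne_one (Nat.dvd_one.1 (by exact_mod_cast (dvd_neg.1 h)))
    · obtain rfl := (Nat.prime_dvd_prime_iff_eq Fact.out hl).1 (by exact_mod_cast h)
      exact hne rfl
  have hpt : phiQ (F := F) ((p : ℤ) : ℚ) (pr p).2 = 1 :=
    flip_eq_one (hst.moves _ (by rw [root_sq]; simp))
  have hodd := (Fact.out : p.Prime).odd_of_ne_two hp2
  rw [tameFun_sy hodd]
  split_ifs with h1 h2 h2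
  · rw [h1, h2, hpt]
    linear_combination phiQ (F := F) ((p : ℤ) : ℚ) (pr p).1 * CharTwo.two_eq_zero (R := F)
  · rw [h1, hpt, phiQ_inertia hA hp2 (hnd b hb h2) hst.inertia,
      phiQ_frobenius hA hp2 (hnd b hb h2) hst.frob]
    ring
  · rw [h2, hpt, phiQ_inertia hA hp2 (hnd a ha h1) hst.inertia,
      phiQ_frobenius hA hp2 (hnd a ha h1) hst.frob]
    ring
  · rw [phiQ_inertia hA hp2 (hnd a ha h1) hst.inertia,
      phiQ_inertia hA hp2 (hnd b hb h2) hst.inertia]
    ring

/-- The coordinates of a generator at two. -/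
def coord (F : Type*) [Field F] (a : ℤ) : F × F × F :=
  if a = -1 then (1, 0, 0) else if a = 2 then (0, 1, 0) else (epsF F a, 0, omegaF F a)

omit hq in
theorem phiQ_gen_local {a : ℤ} (ha : IsGen a) (s : G2) : phiQ (F := F) (a : ℚ) (loc s) =
    locVec F (coord F a).1 (coord F a).2.1 (coord F a).2.2 (loc s) := by
  rcases ha with rfl | ⟨p, hp, rfl⟩
  · rw [coord, if_pos rfl]
    simpa using phiQ_neg_one_eq (F := F) (loc s)
  rw [coord, if_neg (by omega)]
  by_cases h : (p : ℤ) = 2
  · rw [if_pos h, h]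
    simpa using phiQ_two_eq (F := F) (loc s)
  · rw [if_neg h]
    have h2 : p % 2 = 1 := Nat.odd_iff.1 (hp.odd_of_ne_two (by exact_mod_cast h))
    exact phiQ_odd_eq (by omega) s

omit [CharP F 2] in
theorem legF_neg_one (hq2 : q ≠ 2) : legF F q (-1) = epsF F (q : ℤ) := by
  have hodd : q % 2 = 1 := Nat.odd_iff.1 (hq.out.odd_of_ne_two hq2)
  rw [legF, legendreSym.at_neg_one hq2]
  rcases Nat.odd_mod_four_iff.1 hodd with h | h
  · rw [ZMod.χ₄_nat_one_mod_four h, if_pos rfl, epsF, if_neg (by omega)]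
  · rw [ZMod.χ₄_nat_three_mod_four h, if_neg (by decide), epsF, if_pos (by omega)]

omit [CharP F 2] in
theorem legF_two (hq2 : q ≠ 2) : legF F q 2 = omegaF F (q : ℤ) := by
  have hodd : q % 2 = 1 := Nat.odd_iff.1 (hq.out.odd_of_ne_two hq2)
  rw [legF, legendreSym.at_two hq2, ZMod.χ₈_nat_eq_if_mod_eight, omegaF,
    if_neg (by omega : ¬ q % 2 = 0)]
  rcases (show q % 8 = 1 ∨ q % 8 = 3 ∨ q % 8 = 5 ∨ q % 8 = 7 by omega) with h | h | h | h
  · rw [if_pos (Or.inl h), if_pos rfl, if_neg (by omega)]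
  · simp [h, show (q : ℤ) % 8 = 3 by omega]
  · simp [h, show (q : ℤ) % 8 = 5 by omega]
  · rw [if_pos (Or.inr h), if_pos rfl, if_neg (by omega)]

omit hq in
theorem legF_recip {p r : ℕ} [Fact p.Prime] [Fact r.Prime] (hp2 : p ≠ 2) (hr2 : r ≠ 2)
    (hne : p ≠ r) : legF F p r + legF F r p = epsF F (p : ℤ) * epsF F (r : ℤ) := by
  have hp := Nat.odd_iff.1 ((Fact.out : p.Prime).odd_of_ne_two hp2)
  have hr := Nat.odd_iff.1 ((Fact.out : r.Prime).odd_of_ne_two hr2)
  have hnd : ∀ u v : ℕ, [Fact u.Prime] → [Fact v.Prime] → u ≠ v → ((v : ℤ) : ZMod u) ≠ 0 := by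
    intro u v _ _ huv h
    rw [Int.cast_natCast, ZMod.natCast_eq_zero_iff] at h
    exact huv ((Nat.prime_dvd_prime_iff_eq Fact.out Fact.out).1 h)
  have h1 := legendreSym.eq_one_or_neg_one p (hnd p r hne)
  have h2 := legendreSym.eq_one_or_neg_one r (hnd r p hne.symm)
  have hrec := legendreSym.quadratic_reciprocity hp2 hr2 hne
  have hev : ((-1 : ℤ) ^ (p / 2 * (r / 2))) = if p % 4 = 3 ∧ r % 4 = 3 then -1 else 1 := by
    split_ifs with h
    · exact Odd.neg_one_pow (Nat.odd_mul.2 ⟨Nat.odd_iff.2 (by omega), Nat.odd_iff.2 (by omega)⟩)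
    · refine Even.neg_one_pow (Nat.even_mul.2 ?_)
      rw [Nat.even_iff, Nat.even_iff]
      omega
  rw [hev] at hrec
  simp only [legF, epsF]
  by_cases hA' : p % 4 = 3 <;> by_cases hB' : r % 4 = 3 <;>
    simp only [hA', hB', and_self, and_true, and_false, if_true, if_false]
      at hrec <;>
    rcases h1 with h1 | h1 <;> rcases h2 with h2 | h2 <;>
    simp_all [CharTwo.add_self_eq_zero, show ((p : ℤ) % 4 = 3) ↔ p % 4 = 3 by omega,
      show ((r : ℤ) % 4 = 3) ↔ r % 4 = 3 by omega]

omit hq in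
theorem formula_gen (hpr : IsPairChoice pr) {a b : ℤ} (ha : IsGen a) (hb : IsGen b) :
    Formula (F := F) pr (sy (a : ℚ) (b : ℚ)) := by
  classical
  set S₀ : Finset ℕ := (({a.toNat, b.toNat} : Finset ℕ)).filter fun p => p.Prime ∧ p ≠ 2
  refine ⟨S₀, fun p hp => (Finset.mem_filter.1 hp).2, fun T hsub ho => ?_⟩
  have hmem : ∀ c : ℤ, (c = a ∨ c = b) → ∀ p : ℕ, p.Prime → p ≠ 2 → c = p → p ∈ T := by
    intro c hc p hp hp2 e
    refine hsub (Finset.mem_filter.2 ⟨?_, hp, hp2⟩)
    rcases hc with rfl | rfl <;> simp [e]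
  have htame : ∀ p ∈ T, tameFun p (pr p).1 (pr p).2 (sy (F := F) (a : ℚ) (b : ℚ)) =
      (if a = p then (if b = p then epsF F (p : ℤ) else
          if h : p.Prime then (haveI := Fact.mk h; legF F p b) else 0)
        else (if b = p then (if h : p.Prime then (haveI := Fact.mk h; legF F p a) else 0) else 0)) := by
    intro p hp
    haveI := Fact.mk (ho p hp).1
    rw [tameFun_gen hpr (ho p hp).2 ha hb, dif_pos (ho p hp).1, dif_pos (ho p hp).1]
  have hinf : infFun (sy (F := F) (a : ℚ) (b : ℚ)) = if a = -1 ∧ b = -1 then 1 else 0 := by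
    rw [infFun_sy]
    rcases ha with rfl | ⟨p, hp, rfl⟩
    · rcases hb with rfl | ⟨r, hr, rfl⟩
      · rw [if_pos ⟨rfl, rfl⟩, Int.cast_neg, Int.cast_one, phiQ_complexConjugation_neg_one, one_mul]
      · rw [if_neg (by omega), phiQ_complexConjugation_pos (a := ((r : ℤ) : ℚ)) (by positivity),
          mul_zero]
    · rw [if_neg (by omega), phiQ_complexConjugation_pos (a := ((p : ℤ) : ℚ)) (by positivity),
        zero_mul]
  have htot : totalFun pr T (sy (F := F) (a : ℚ) (b : ℚ)) =
      (coord F a).1 * (coord F b).1 +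
        ((coord F a).2.1 * (coord F b).2.2 + (coord F a).2.2 * (coord F b).2.1) := by
    rw [totalFun_apply, hinf, Finset.sum_congr rfl htame]
    have hnone : ∀ c : ℤ, c = -1 ∨ c = 2 → ∀ p ∈ T, c ≠ (p : ℤ) := fun c hc p hp h => by
      rcases hc with rfl | rfl
      · omega
      · exact (ho p hp).2 (by exact_mod_cast h.symm)
    rcases ha with rfl | ⟨p, hp, rfl⟩ <;> rcases hb with rfl | ⟨r, hr, rfl⟩
    · rw [Finset.sum_eq_zero fun x hx => by
        rw [if_neg (hnone _ (Or.inl rfl) x hx), if_neg (hnone _ (Or.inl rfl) x hx)]]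
      simp [coord]
    · by_cases hr2 : r = 2
      · subst hr2
        rw [Finset.sum_eq_zero fun x hx => by
          rw [if_neg (hnone _ (Or.inl rfl) x hx), if_neg (hnone _ (Or.inr (by norm_num)) x hx)]]
        simp [coord]
      · haveI := Fact.mk hr
        rw [Finset.sum_eq_single_of_mem r (hmem _ (Or.inr rfl) r hr hr2 rfl) fun x hx hne => by
          rw [if_neg (hnone _ (Or.inl rfl) x hx), if_neg (by omega)]]
        rw [if_neg (by omega), if_pos rfl, dif_pos hr, legF_neg_one hr2]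
        simp [coord, show ((r : ℤ) ≠ -1) by omega, show ((r : ℤ) ≠ 2) by omega]
    · by_cases hp2 : p = 2
      · subst hp2
        rw [Finset.sum_eq_zero fun x hx => by
          rw [if_neg (hnone _ (Or.inr (by norm_num)) x hx), if_neg (hnone _ (Or.inl rfl) x hx)]]
        simp [coord]
      · haveI := Fact.mk hp
        rw [Finset.sum_eq_single_of_mem p (hmem _ (Or.inl rfl) p hp hp2 rfl) fun x hx hne => by
          rw [if_neg (by omega), if_neg (hnone _ (Or.inl rfl) x hx)]]
        rw [if_pos rfl, if_neg (by omega), dif_pos hp, legF_neg_one hp2]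
        simp [coord, show ((p : ℤ) ≠ -1) by omega, show ((p : ℤ) ≠ 2) by omega]
    · rw [if_neg (by omega : ¬ ((p : ℤ) = -1 ∧ (r : ℤ) = -1)), add_zero]
      by_cases hp2 : p = 2
      · subst hp2
        by_cases hr2 : r = 2
        · subst hr2
          rw [Finset.sum_eq_zero fun x hx => by
            rw [if_neg (hnone _ (Or.inr (by norm_num)) x hx),
              if_neg (hnone _ (Or.inr (by norm_num)) x hx)]]
          simp [coord]
        · haveI := Fact.mk hr
          rw [Finset.sum_eq_single_of_mem r (hmem _ (Or.inr rfl) r hr hr2 rfl) fun x hx hne => by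
            rw [if_neg (hnone _ (Or.inr (by norm_num)) x hx), if_neg (by omega)]]
          rw [if_neg (by omega), if_pos rfl, dif_pos hr, Nat.cast_ofNat, legF_two hr2]
          simp [coord, show ((r : ℤ) ≠ -1) by omega, show ((r : ℤ) ≠ 2) by omega]
      haveI := Fact.mk hp
      by_cases hr2 : r = 2
      · subst hr2
        rw [Finset.sum_eq_single_of_mem p (hmem _ (Or.inl rfl) p hp hp2 rfl) fun x hx hne => by
          rw [if_neg (by omega), if_neg (hnone _ (Or.inr (by norm_num)) x hx)]]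
        rw [if_pos rfl, if_neg (by omega), dif_pos hp, Nat.cast_ofNat, legF_two hp2]
        simp [coord, show ((p : ℤ) ≠ -1) by omega, show ((p : ℤ) ≠ 2) by omega]
      haveI := Fact.mk hr
      by_cases hpr' : p = r
      · subst hpr'
        rw [Finset.sum_eq_single_of_mem p (hmem _ (Or.inl rfl) p hp hp2 rfl) fun x hx hne => by
          rw [if_neg (by omega), if_neg (by omega)]]
        simp only [if_true, coord, if_neg (show ¬ (p : ℤ) = -1 by omega),
          if_neg (show ¬ (p : ℤ) = 2 by omega), epsF]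
        split_ifs <;> simp
      · rw [← Finset.add_sum_erase T _ (hmem _ (Or.inl rfl) p hp hp2 rfl),
          Finset.sum_eq_single_of_mem r
            (Finset.mem_erase.2 ⟨Ne.symm hpr', hmem _ (Or.inr rfl) r hr hr2 rfl⟩) fun x hx hne => by
            obtain ⟨hx1, -⟩ := Finset.mem_erase.1 hx
            rw [if_neg (by omega), if_neg (by omega)]]
        rw [if_pos rfl, if_neg (by omega), dif_pos hp, if_neg (by omega), if_pos rfl, dif_pos hr,
          legF_recip hp2 hr2 hpr']
        simp [coord, show ((p : ℤ) ≠ -1) by omega, show ((p : ℤ) ≠ 2) by omega,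
          show ((r : ℤ) ≠ -1) by omega, show ((r : ℤ) ≠ 2) by omega]
  rw [htot]
  refine mem_cobTwo_of_eq (fun s t => ?_) (cup_locVec (coord F a).1 (coord F a).2.1 (coord F a).2.2
    (coord F b).1 (coord F b).2.1 (coord F b).2.2)
  simp only [Pi.sub_apply, Pi.smul_apply, sy, cup, phiQ_gen_local ha s, phiQ_gen_local hb t]

omit [CharP F 2] hq in
theorem induction_rat {P : ℚ → Prop} (hgen : ∀ a : ℤ, IsGen a → P (a : ℚ)) (h1 : P 1)
    (hmul : ∀ a b : ℚ, a ≠ 0 → b ≠ 0 → P a → P b → P (a * b))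
    (hinv : ∀ a : ℚ, a ≠ 0 → P a → P a⁻¹) {a : ℚ} (ha : a ≠ 0) : P a := by
  have hnat : ∀ n : ℕ, n ≠ 0 → P (n : ℚ) := by
    intro n
    induction n using Nat.recOnMul with
    | zero => simp
    | one => intro; simpa using h1
    | prime p hp => intro; simpa using hgen p (Or.inr ⟨p, hp, rfl⟩)
    | mul x y hx hy =>
      intro hxy
      rw [Nat.cast_mul]
      obtain ⟨h2, h3⟩ := mul_ne_zero_iff.1 hxy
      exact hmul _ _ (by exact_mod_cast h2) (by exact_mod_cast h3) (hx h2) (hy h3)
  have hint : ∀ n : ℤ, n ≠ 0 → P (n : ℚ) := by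
    intro n hn
    obtain ⟨m, rfl | rfl⟩ := Int.eq_nat_or_neg n
    · simpa using hnat m (by omega)
    · rw [show (((-(m : ℤ)) : ℤ) : ℚ) = ((-1 : ℤ) : ℚ) * (m : ℚ) by push_cast; ring]
      exact hmul _ _ (by norm_num) (by exact_mod_cast (show m ≠ 0 by omega))
        (hgen (-1) (Or.inl rfl)) (hnat m (by omega))
  rw [← Rat.num_div_den a, div_eq_mul_inv]
  exact hmul _ _ (by exact_mod_cast (Rat.num_ne_zero.2 ha))
    (inv_ne_zero (by exact_mod_cast a.den_nz)) (hint _ (Rat.num_ne_zero.2 ha))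
    (hinv _ (by exact_mod_cast a.den_nz) (hnat _ a.den_nz))

omit hq in
theorem phiQ_inv {a : ℚ} (ha : a ≠ 0) : phiQ (F := F) a⁻¹ = phiQ a := by
  rw [← phiQ_mul_sq (inv_ne_zero ha) ha]
  congr 1
  field_simp

omit hq [CharP F 2] in
theorem phiQ_one : phiQ (F := F) 1 = 0 := by
  have := phiQ_sq (F := F) 1
  rwa [one_pow] at this

omit hq in
theorem formula_sy (hpr : IsPairChoice pr) {a b : ℚ} (ha : a ≠ 0) (hb : b ≠ 0) :
    Formula (F := F) pr (sy a b) := by
  have h0 : Formula (F := F) pr 0 := formula_cob hpr (Submodule.zero_mem _)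
  refine induction_rat (P := fun x => Formula (F := F) pr (sy x b)) (fun c hc => ?_) ?_
    (fun x y hx hy h h' => by rw [sy_mul_left hx hy]; exact h.add h')
    (fun x hx h => by rwa [sy, phiQ_inv hx]) ha
  · refine induction_rat (P := fun x => Formula (F := F) pr (sy (c : ℚ) x))
      (fun d hd => formula_gen hpr hc hd) ?_
      (fun x y hx hy h h' => by rw [sy_mul_right _ hx hy]; exact h.add h')
      (fun x hx h => by rwa [sy, phiQ_inv hx]) hb
    show Formula pr (sy (c : ℚ) 1)
    rw [sy, phiQ_one, show cup (phiQ (F := F) (c : ℚ)) 0 = 0 from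
      funext fun g => funext fun k => mul_zero _]
    exact h0
  · show Formula pr (sy 1 b)
    rw [sy, phiQ_one, show cup (0 : GQ → F) (phiQ b) = 0 from
      funext fun g => funext fun k => zero_mul _]
    exact h0

omit hq in
theorem formula_symb (hpr : IsPairChoice pr) {z : GQ → GQ → F} (hz : z ∈ symb) : Formula pr z := by
  obtain ⟨u, hu, w, hw, rfl⟩ := Submodule.mem_sup.1 hz
  refine Formula.add ?_ (formula_cob hpr hw)
  clear hz
  induction hu using Submodule.span_induction with
  | mem x hx =>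
    obtain ⟨⟨a, b⟩, rfl⟩ := hx
    exact formula_sy hpr a.ne_zero b.ne_zero
  | zero => exact formula_cob hpr (Submodule.zero_mem _)
  | add x y _ _ h h' => exact h.add h'
  | smul c x _ h => exact h.smul c

omit hq in
/-- **Reciprocity.** -/
theorem totalFun_eq_zero (hpr : IsPairChoice pr) {z : GQ → GQ → F} (hz : z ∈ symb)
    (h2 : z ∈ cobTwo) {S : Finset ℕ} (hS : OddPrimes S)
    (hoff : ∀ p : ℕ, p.Prime → p ≠ 2 → p ∉ S → tameFun p (pr p).1 (pr p).2 z = 0) :
    totalFun pr S z = 0 := by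
  classical
  obtain ⟨T₀, hT, h⟩ := formula_symb hpr hz
  have ho : OddPrimes (T₀ ∪ S) := fun p hp => (Finset.mem_union.1 hp).elim (hT p) (hS p)
  have e : totalFun pr (T₀ ∪ S) z = totalFun pr S z := by
    rw [totalFun_apply, totalFun_apply]
    congr 1
    exact (Finset.sum_subset Finset.subset_union_right fun p hp hpS =>
      hoff p (ho p hp).1 (ho p hp).2 hpS).symm
  have hb := Submodule.sub_mem _ h2 (h (T₀ ∪ S) Finset.subset_union_left ho)
  rw [sub_sub_cancel, e] at hb
  by_contra hne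
  refine base_notMem_cobTwo (F := F) ?_
  have := Submodule.smul_mem _ (totalFun pr S z)⁻¹ hb
  rwa [smul_smul, inv_mul_cancel₀ hne, one_smul] at this

end Fermat.Agent.RT.Two.Recip

end
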