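import Fermat.Agent.RT.Two.Recip.Cup

/-!
# Transfer of products from the stabiliser of a point

For a transitive finite set, a pairing of two cocycles with values in functions on the set is,
modulo coboundaries, the transfer of the product of the two characters of a stabiliser.
-/

set_option autoImplicit false

noncomputable section

namespace Fermat.Agent.RT.Two.Recip

open Fermat.Agent.Arith MulAction

variable {F : Type*} [Field F] {X : Type*} [Fintype X] [MulAction GQ X]

/-- A transversal for a point. -/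
structure Transversal (x₀ : X) where
  γ : X → GQ
  smul_γ : ∀ x, γ x • x₀ = x

variable {x₀ : X}

/-- The element of the stabiliser attached to a group element and a point. -/
def Transversal.part (T : Transversal x₀) (g : GQ) (x : X) : GQ :=
  (T.γ x)⁻¹ * g * T.γ (g⁻¹ • x)

omit [Fintype X] in
theorem Transversal.part_mem (T : Transversal x₀) (g : GQ) (x : X) :
    T.part g x • x₀ = x₀ := by
  rw [Transversal.part, mul_smul, mul_smul, T.smul_γ, smul_inv_smul, inv_smul_eq_iff, T.smul_γ]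

omit [Fintype X] in
theorem Transversal.part_mul (T : Transversal x₀) (g h : GQ) (x : X) :
    T.part (g * h) x = T.part g x * T.part h (g⁻¹ • x) := by
  simp only [Transversal.part, mul_inv_rev, mul_smul]
  group

/-- The pairing. -/
def pair (c d : GQ → X → F) : GQ → GQ → F := fun g h => ∑ x, c g x * d h (g⁻¹ • x)

/-- The transfer of a product. -/
def tProd (T : Transversal x₀) (χ ψ : GQ → F) : GQ → GQ → F :=
  pair (fun g x => χ (T.part g x)) fun g x => ψ (T.part g x)

theorem tProd_apply (T : Transversal x₀) (χ ψ : GQ → F) (g h : GQ) :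
    tProd T χ ψ g h = ∑ x, χ (T.part g x) * ψ (T.part h (g⁻¹ • x)) := rfl

/-- The transfer of a function. -/
def tFun (T : Transversal x₀) (f : GQ → F) : GQ → F := fun g => ∑ x, f (T.part g x)

theorem sum_smul_inv (g : GQ) (f : X → F) : ∑ x, f (g⁻¹ • x) = ∑ x, f x :=
  Fintype.sum_equiv (MulAction.toPerm g⁻¹) _ _ fun _ => rfl

theorem cobMap_tFun (T : Transversal x₀) (f : GQ → F) (g h : GQ) :
    cobMap (tFun T f) g h = ∑ x, cobMap f (T.part g x) (T.part h (g⁻¹ • x)) := by
  simp only [cobMap_apply, tFun, T.part_mul, Finset.sum_add_distrib]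
  rw [sum_smul_inv g (fun x => f (T.part h x))]

/-- The transfer respects coboundaries. -/
theorem tProd_eq_cobMap (T : Transversal x₀) {χ ψ f : GQ → F}
    (hf : ∀ g h : GQ, g • x₀ = x₀ → h • x₀ = x₀ → χ g * ψ h = f g + f h + f (g * h)) :
    tProd T χ ψ = cobMap (tFun T f) := by
  funext g h
  rw [cobMap_tFun]
  exact Finset.sum_congr rfl fun x _ => hf _ _ (T.part_mem g x) (T.part_mem h _)

/-- An action through a finite level. -/
def IsFiniteAction (X : Type*) [MulAction GQ X] : Prop :=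
  ∃ U : Subgroup GQ, U.Normal ∧ IsOpen (U : Set GQ) ∧ ∀ u ∈ U, ∀ x : X, u • x = x

theorem tFun_mem (hX : IsFiniteAction X) (T : Transversal x₀) {f : GQ → F} (hf : f ∈ finLvl) :
    tFun T f ∈ finLvl := by
  obtain ⟨U, hU, hUo, hfix⟩ := hX
  obtain ⟨V, hV, hVo, hf⟩ := mem_finLvl.1 hf
  refine mem_finLvl.2 ⟨U ⊓ V, inferInstance, hUo.inter hVo, fun g u hu => ?_⟩
  refine Finset.sum_congr rfl fun x _ => ?_
  have e : T.part (g * u) x = T.part g x * ((T.γ (g⁻¹ • x))⁻¹ * u * T.γ (g⁻¹ • x)) := by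
    rw [Transversal.part, Transversal.part, mul_inv_rev, mul_smul,
      hfix u⁻¹ (U.inv_mem hu.1) (g⁻¹ • x)]
    group
  rw [e, hf]
  simpa using hV.conj_mem u hu.2 (T.γ (g⁻¹ • x))⁻¹

/-- A cocycle with values in functions. -/
def IsFunCocycle (c : GQ → X → F) : Prop := ∀ g h x, c (g * h) x = c g x + c h (g⁻¹ • x)

/-- The character of the stabiliser. -/
def atPoint (c : GQ → X → F) (x₀ : X) : GQ → F := fun g => c g x₀

variable [CharP F 2]

omit [Fintype X] [CharP F 2] in
theorem atPoint_mul {c : GQ → X → F} (hc : IsFunCocycle c) {g h : GQ} (hg : g • x₀ = x₀) :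
    atPoint c x₀ (g * h) = atPoint c x₀ g + atPoint c x₀ h := by
  rw [atPoint, hc, show g⁻¹ • x₀ = x₀ by rw [inv_smul_eq_iff, hg]]
  rfl

omit [Fintype X] in
theorem cocycle_eq (T : Transversal x₀) {c : GQ → X → F} (hc : IsFunCocycle c) (g : GQ) (x : X) :
    c g x = atPoint c x₀ (T.part g x) + c (T.γ x) x + c (T.γ (g⁻¹ • x)) (g⁻¹ • x) := by
  have h1 := hc (T.γ x) (T.part g x) x
  rw [show (T.γ x)⁻¹ • x = x₀ by rw [inv_smul_eq_iff, T.smul_γ],
    show T.γ x * T.part g x = g * T.γ (g⁻¹ • x) by rw [Transversal.part]; group, hc] at h1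
  rw [atPoint]
  linear_combination h1 - c (T.γ (g⁻¹ • x)) (g⁻¹ • x) * CharTwo.two_eq_zero (R := F)

theorem pair_coboundary_left (m : X → F) {d : GQ → X → F} (hd : IsFunCocycle d) :
    pair (fun g x => m x + m (g⁻¹ • x)) d = cobMap fun g => ∑ x, m x * d g x := by
  funext g h
  rw [cobMap_apply]
  simp only [pair, add_mul, mul_add, hd g h, Finset.sum_add_distrib,
    sum_smul_inv g (fun y => m y * d h y)]
  linear_combination -(∑ x, m x * d g x) * CharTwo.two_eq_zero (R := F)

theorem pair_coboundary_right {c : GQ → X → F} (hc : IsFunCocycle c) (n : X → F) :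
    pair c (fun g x => n x + n (g⁻¹ • x)) = cobMap fun g => ∑ x, c g x * n (g⁻¹ • x) := by
  funext g h
  rw [cobMap_apply]
  simp only [pair, mul_add, hc g h, add_mul, Finset.sum_add_distrib, mul_inv_rev, mul_smul,
    sum_smul_inv g (fun y => c h y * n (h⁻¹ • y))]
  linear_combination -(∑ x, c h x * n (h⁻¹ • x)) * CharTwo.two_eq_zero (R := F)

omit [CharP F 2] [Fintype X] in
theorem isFunCocycle_part (T : Transversal x₀) {χ : GQ → F}
    (hχ : ∀ g h : GQ, g • x₀ = x₀ → h • x₀ = x₀ → χ (g * h) = χ g + χ h) :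
    IsFunCocycle fun g x => χ (T.part g x) := fun g h x => by
  show χ (T.part (g * h) x) = _
  rw [T.part_mul, hχ _ _ (T.part_mem g x) (T.part_mem h _)]

omit [CharP F 2] in
theorem sum_mul_finLvl (hX : IsFiniteAction X) {c : GQ → X → F}
    (hc : ∀ x, (fun g => c g x) ∈ finLvl) (n : X → F) :
    (fun g => ∑ x, c g x * n (g⁻¹ • x)) ∈ finLvl := by
  obtain ⟨U, hU, hUo, hfix⟩ := hX
  rw [← Finset.sum_fn]
  refine Submodule.sum_mem _ fun x _ => ?_
  obtain ⟨V, hV, hVo, hcx⟩ := mem_finLvl.1 (hc x)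
  refine mem_finLvl.2 ⟨U ⊓ V, inferInstance, hUo.inter hVo, fun g u hu => ?_⟩
  show c (g * u) x * n ((g * u)⁻¹ • x) = c g x * n (g⁻¹ • x)
  rw [show c (g * u) x = c g x from hcx g u hu.2, mul_inv_rev, mul_smul, hfix u⁻¹ (U.inv_mem hu.1)]

omit [CharP F 2] [MulAction GQ X] in
theorem sum_mul_left_finLvl {c : GQ → X → F} (hc : ∀ x, (fun g => c g x) ∈ finLvl) (m : X → F) :
    (fun g => ∑ x, m x * c g x) ∈ finLvl := by
  rw [← Finset.sum_fn]
  exact Submodule.sum_mem _ fun x _ => Submodule.smul_mem _ (m x) (hc x)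

omit [CharP F 2] [Fintype X] in
theorem part_finLvl (hX : IsFiniteAction X) (T : Transversal x₀) {χ : GQ → F} (hχ : χ ∈ finLvl)
    (x : X) : (fun g => χ (T.part g x)) ∈ finLvl := by
  obtain ⟨U, hU, hUo, hfix⟩ := hX
  obtain ⟨V, hV, hVo, hχ⟩ := mem_finLvl.1 hχ
  refine mem_finLvl.2 ⟨U ⊓ V, inferInstance, hUo.inter hVo, fun g u hu => ?_⟩
  show χ (T.part (g * u) x) = χ (T.part g x)
  have e : T.part (g * u) x = T.part g x * ((T.γ (g⁻¹ • x))⁻¹ * u * T.γ (g⁻¹ • x)) := by
    rw [Transversal.part, Transversal.part, mul_inv_rev, mul_smul,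
      hfix u⁻¹ (U.inv_mem hu.1) (g⁻¹ • x)]
    group
  rw [e, hχ]
  simpa using hV.conj_mem u hu.2 (T.γ (g⁻¹ • x))⁻¹

/-- **A pairing is a transfer of a product, up to a coboundary.** -/
theorem pair_sub_tProd_mem_cob (hX : IsFiniteAction X) (T : Transversal x₀) {c d : GQ → X → F}
    (hc : IsFunCocycle c) (hd : IsFunCocycle d) (hc' : ∀ x, (fun g => c g x) ∈ finLvl)
    (hd' : ∀ x, (fun g => d g x) ∈ finLvl) :
    pair c d - tProd T (atPoint c x₀) (atPoint d x₀) ∈ cob := by
  set c' : GQ → X → F := fun g x => atPoint c x₀ (T.part g x)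
  set d' : GQ → X → F := fun g x => atPoint d x₀ (T.part g x)
  set m : X → F := fun x => c (T.γ x) x
  set n : X → F := fun x => d (T.γ x) x
  have hcc' : IsFunCocycle c' := isFunCocycle_part T fun g h hg _ => atPoint_mul hc hg
  have e : pair c d - tProd T (atPoint c x₀) (atPoint d x₀) =
      pair (fun g x => m x + m (g⁻¹ • x)) d + pair c' (fun g x => n x + n (g⁻¹ • x)) := by
    funext g h
    simp only [Pi.sub_apply, Pi.add_apply, tProd_apply, pair, ← Finset.sum_add_distrib,
      ← Finset.sum_sub_distrib]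
    refine Finset.sum_congr rfl fun x _ => ?_
    simp only [cocycle_eq T hc g x, cocycle_eq T hd h (g⁻¹ • x), c', m, n]
    ring
  rw [e, pair_coboundary_left m hd, pair_coboundary_right hcc' n]
  exact Submodule.add_mem _ (cobMap_mem (sum_mul_left_finLvl hd' m))
    (cobMap_mem (sum_mul_finLvl hX (fun x => part_finLvl hX T (hc' x₀) x) n))

end Fermat.Agent.RT.Two.Recip

end
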