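import Fermat.Agent.RT.Two.Recip.Cup
import Fermat.Agent.CFT.Local.Global

/-!
# Rational symbols at two

On the local Galois group at two every product of quadratic characters of rational numbers is a
multiple of the square of the character of `-1`, which is not a coboundary.
-/

set_option autoImplicit false
set_option linter.style.haveILetI false

noncomputable section

namespace Fermat.Agent.RT.Two.Recip

open Fermat.Agent.Arith

/-- The algebraic closure of the two-adic numbers. -/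
abbrev Q2bar : Type := PadicAlgCl 2

/-- The local group. -/
abbrev G2 : Type := Q2bar ≃ₐ[ℚ_[2]] Q2bar

/-- The map to the global group. -/
def loc : G2 →* GQ := localGaloisToGlobal 2

theorem embed_loc (τ : G2) (x : QBar) :
    padicEmbedding 2 (loc τ x) = τ (padicEmbedding 2 x) :=
  padicEmbedding_localGaloisToGlobal 2 τ x

variable {F : Type*} [Field F]

/-- Coboundaries on the local group. -/
def cobTwo : Submodule F (GQ → GQ → F) where
  carrier := {z | ∃ f ∈ finLvl (F := F),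
    ∀ s t : G2, z (loc s) (loc t) = cobMap f (loc s) (loc t)}
  add_mem' := by
    rintro a b ⟨f, hf, ha⟩ ⟨g, hg, hb⟩
    exact ⟨f + g, Submodule.add_mem _ hf hg, fun s t => by simp [ha, hb]⟩
  zero_mem' := ⟨0, Submodule.zero_mem _, fun s t => by simp⟩
  smul_mem' := by
    rintro c a ⟨f, hf, ha⟩
    exact ⟨c • f, Submodule.smul_mem _ c hf, fun s t => by simp [ha]⟩

theorem cob_le_cobTwo : cob ≤ cobTwo (F := F) := by
  rintro _ ⟨f, hf, rfl⟩
  exact ⟨f, hf, fun s t => rfl⟩

theorem mem_cobTwo_of_eq {z z' : GQ → GQ → F} (h : ∀ s t : G2, z (loc s) (loc t) = z' (loc s) (loc t))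
    (hz : z' ∈ cobTwo) : z ∈ cobTwo := by
  obtain ⟨f, hf, e⟩ := hz
  exact ⟨f, hf, fun s t => (h s t).trans (e s t)⟩

/-- The character of a rational number. -/
def phiQ (a : ℚ) : GQ → F := phi (algebraMap ℚ QBar a)

variable [CharP F 2]

theorem phiQ_mul_apply (a : ℚ) (g h : GQ) :
    phiQ (F := F) a (g * h) = phiQ a g + phiQ a h :=
  phi_mul (g.commutes a) (h.commutes a)

theorem phiQ_mul {a b : ℚ} (ha : a ≠ 0) (hb : b ≠ 0) :
    phiQ (F := F) (a * b) = phiQ a + phiQ b := by
  funext g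
  rw [phiQ, map_mul, phi_mul_arg ((map_ne_zero _).2 ha) ((map_ne_zero _).2 hb) (g.commutes a)
    (g.commutes b)]
  rfl

omit [CharP F 2] in
theorem phiQ_sq (c : ℚ) : phiQ (F := F) (c ^ 2) = 0 := by
  funext g; rw [phiQ, map_pow, phi_sq _ (g.commutes c)]; rfl

theorem phiQ_mul_sq {a c : ℚ} (ha : a ≠ 0) (hc : c ≠ 0) :
    phiQ (F := F) (a * c ^ 2) = phiQ a := by
  rw [phiQ_mul ha (pow_ne_zero 2 hc), phiQ_sq, add_zero]

/-- Products of rational characters. -/
def sy (a b : ℚ) : GQ → GQ → F := cup (phiQ a) (phiQ b)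

theorem sy_steinberg {a b : ℚ} (hab : a + b = 1) (ha : a ≠ 0) (hb : b ≠ 0) :
    sy (F := F) b a ∈ cob := by
  obtain ⟨f, hf, h⟩ := steinberg (F := F) (a := algebraMap ℚ QBar a) (b := algebraMap ℚ QBar b)
    (by rw [← map_add, hab, map_one]) ((map_ne_zero _).2 ha) ((map_ne_zero _).2 hb)
  refine ⟨f, hf, ?_⟩
  funext g k
  exact (h g k (g.commutes a) (k.commutes a)).symm

theorem sy_symm (a b : ℚ) : sy (F := F) a b + sy b a ∈ cob := by
  refine ⟨fun x => phiQ a x * phiQ b x, finLvl_of_eq {root (algebraMap ℚ QBar a),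
    root (algebraMap ℚ QBar b)} fun g g' h => by
      simp only [phiQ, phi, flip, h (root (algebraMap ℚ QBar a)) (Finset.mem_insert_self _ _),
        h (root (algebraMap ℚ QBar b)) (Finset.mem_insert_of_mem (Finset.mem_singleton_self _))], ?_⟩
  funext g k
  rw [cobMap_prod_of_hom (phiQ_mul_apply a g k) (phiQ_mul_apply b g k)]
  rfl

theorem sy_mul_left {a a' : ℚ} (ha : a ≠ 0) (ha' : a' ≠ 0) (b : ℚ) :
    sy (F := F) (a * a') b = sy a b + sy a' b := by
  rw [sy, phiQ_mul ha ha', cup_add_left]; rfl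

theorem sy_mul_right (a : ℚ) {b b' : ℚ} (hb : b ≠ 0) (hb' : b' ≠ 0) :
    sy (F := F) a (b * b') = sy a b + sy a b' := by
  rw [sy, phiQ_mul hb hb', cup_add_right]; rfl

omit [CharP F 2] in
theorem phiQ_local_eq_zero {a : ℚ} (h : IsSquare (a : ℚ_[2])) (s : G2) :
    phiQ (F := F) a (loc s) = 0 := by
  refine flip_eq_zero ((padicEmbedding 2).injective ?_)
  obtain ⟨y, hy⟩ := h
  have e : padicEmbedding 2 (root (algebraMap ℚ QBar a)) ^ 2 = algebraMap ℚ_[2] Q2bar y ^ 2 := by
    rw [← map_pow, root_sq, AlgHom.commutes, ← map_pow, sq y, ← hy,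
      IsScalarTower.algebraMap_apply ℚ ℚ_[2] Q2bar, eq_ratCast (algebraMap ℚ ℚ_[2]) a]
  show padicEmbedding 2 _ = padicEmbedding 2 _
  rw [embed_loc]
  rcases sq_eq_sq_iff_eq_or_eq_neg.1 e with e' | e'
  · rw [e', AlgEquiv.commutes]
  · rw [e', map_neg, AlgEquiv.commutes]

theorem isSquare_of_mod_eight {u : ℤ} (hu : (8 : ℤ) ∣ u - 1) : IsSquare ((u : ℚ) : ℚ_[2]) := by
  set P : Polynomial ℤ_[2] := Polynomial.X ^ 2 - Polynomial.C (u : ℤ_[2])
  have h1 : ‖P.derivative.aeval (1 : ℤ_[2])‖ = (2 : ℝ)⁻¹ := by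
    have : P.derivative.aeval (1 : ℤ_[2]) = ((2 : ℕ) : ℤ_[2]) := by
      simp [P]; norm_num
    rw [this, PadicInt.norm_p]; norm_num
  have h2 : ‖P.aeval (1 : ℤ_[2])‖ ≤ (2 : ℝ) ^ (-(3 : ℕ) : ℤ) := by
    have : P.aeval (1 : ℤ_[2]) = ((1 - u : ℤ) : ℤ_[2]) := by simp [P]
    rw [this]
    have := (PadicInt.norm_int_le_pow_iff_dvd (p := 2) (k := 1 - u) (n := 3)).2
      (by norm_num; rw [show (1 - u : ℤ) = -(u - 1) by ring]; exact dvd_neg.2 hu)
    simpa using this
  obtain ⟨z, hz, -⟩ := hensels_lemma (F := P) (a := (1 : ℤ_[2])) (by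
    rw [h1]; refine lt_of_le_of_lt h2 ?_; norm_num)
  have e : z ^ 2 = (u : ℤ_[2]) := by
    have := hz
    simp only [P, map_sub, map_pow, Polynomial.aeval_X, Polynomial.aeval_C] at this
    simpa [sub_eq_zero] using this
  refine ⟨(z : ℚ_[2]), ?_⟩
  rw [← sq, Rat.cast_intCast, ← PadicInt.coe_intCast, ← e, PadicInt.coe_pow]

/-- The three local classes. -/
def locVec (F : Type*) [Field F] (E V W : F) : GQ → F :=
  E • phiQ (-1) + V • phiQ 2 + W • phiQ 5

theorem phiQ_odd_local {n : ℤ} {c : ℤ} (hn : (n : ℚ) ≠ 0) (hc : (c : ℚ) ≠ 0)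
    (h : (8 : ℤ) ∣ n * c - 1) (s : G2) : phiQ (F := F) (n : ℚ) (loc s) = phiQ (c : ℚ) (loc s) := by
  have h0 := phiQ_local_eq_zero (F := F) (isSquare_of_mod_eight h) s
  rw [Int.cast_mul, phiQ_mul hn hc, Pi.add_apply] at h0
  linear_combination h0 - phiQ (F := F) (c : ℚ) (loc s) * CharTwo.two_eq_zero (R := F)

/-- The coordinates of an odd integer. -/
def epsF (F : Type*) [Field F] (n : ℤ) : F := if n % 4 = 3 then 1 else 0

/-- The coordinate on the character of five. -/
def omegaF (F : Type*) [Field F] (n : ℤ) : F := if n % 8 = 3 ∨ n % 8 = 5 then 1 else 0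

theorem phiQ_odd_eq {n : ℤ} (hn : n % 2 = 1) (s : G2) :
    phiQ (F := F) (n : ℚ) (loc s) = locVec F (epsF F n) 0 (omegaF F n) (loc s) := by
  have hn0 : (n : ℚ) ≠ 0 := by exact_mod_cast (show n ≠ 0 by omega)
  rcases (show n % 8 = 1 ∨ n % 8 = 3 ∨ n % 8 = 5 ∨ n % 8 = 7 by omega) with h | h | h | h
  · rw [phiQ_local_eq_zero (isSquare_of_mod_eight (by omega)) s]
    simp [locVec, epsF, omegaF, h, show n % 4 = 1 by omega]
  · rw [phiQ_odd_local hn0 (c := -5) (by norm_num) (by omega) s,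
      show ((-5 : ℤ) : ℚ) = -1 * 5 by norm_num, phiQ_mul (by norm_num) (by norm_num)]
    simp [locVec, epsF, omegaF, h, show n % 4 = 3 by omega]
  · rw [phiQ_odd_local hn0 (c := 5) (by norm_num) (by omega) s]
    simp [locVec, epsF, omegaF, h, show n % 4 = 1 by omega]
  · rw [phiQ_odd_local hn0 (c := -1) (by norm_num) (by omega) s]
    simp [locVec, epsF, omegaF, h, show n % 4 = 3 by omega]

omit [CharP F 2] in
theorem phiQ_two_eq (g : GQ) : phiQ (F := F) 2 g = locVec F 0 1 0 g := by simp [locVec]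

omit [CharP F 2] in
theorem phiQ_neg_one_eq (g : GQ) : phiQ (F := F) (-1) g = locVec F 1 0 0 g := by simp [locVec]

/-- The symbol of `(-1, -1)`. -/
def base (F : Type*) [Field F] : GQ → GQ → F := sy (-1) (-1)

theorem sy_mem_of_symm {a b : ℚ} (h : sy (F := F) b a ∈ cob) : sy (F := F) a b ∈ cob := by
  have := Submodule.sub_mem _ (sy_symm (F := F) a b) h
  rwa [add_sub_cancel_right] at this

theorem sy_neg_one_two : sy (F := F) (-1) 2 ∈ cob :=
  sy_steinberg (by norm_num) (by norm_num) (by norm_num)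

theorem sy_neg_one_five : sy (F := F) (-1) 5 ∈ cob := by
  have h := sy_steinberg (F := F) (a := 5) (b := -1 * 2 ^ 2) (by norm_num) (by norm_num) (by norm_num)
  rwa [sy, phiQ_mul_sq (by norm_num) (by norm_num)] at h

theorem sy_self {a x y : ℚ} (ha : a ≠ 0) (hx : x ≠ 0) (hy : y ≠ 0)
    (h : a * x ^ 2 + (-1 * a) * y ^ 2 = 1) (h1 : sy (F := F) a (-1) ∈ cob) :
    sy (F := F) a a ∈ cob := by
  have h2 := sy_mem_of_symm (sy_steinberg (F := F) (a := a * x ^ 2) (b := (-1 * a) * y ^ 2) h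
    (mul_ne_zero ha (pow_ne_zero 2 hx))
    (mul_ne_zero (mul_ne_zero (by norm_num) ha) (pow_ne_zero 2 hy)))
  rw [sy, phiQ_mul_sq ha hx, phiQ_mul_sq (mul_ne_zero (by norm_num) ha) hy] at h2
  have h3 := Submodule.sub_mem _ h2 h1
  rwa [show cup (phiQ (F := F) a) (phiQ (-1 * a)) = sy a (-1) + sy a a by
    rw [← sy_mul_right a (by norm_num) ha]; rfl, add_sub_cancel_left] at h3

theorem sy_two_five : sy (F := F) 2 5 + base F ∈ cobTwo := by
  have h := cob_le_cobTwo (sy_steinberg (F := F) (a := 3) (b := -1 * 2) (by norm_num) (by norm_num)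
    (by norm_num))
  have h3 : ∀ s : G2, phiQ (F := F) 3 (loc s) = (phiQ (F := F) (-1) + phiQ (F := F) 5 : GQ → F) (loc s) := fun s => by
    have := phiQ_odd_eq (F := F) (n := 3) (by norm_num) s
    simpa [locVec, epsF, omegaF] using this
  have h' : cup (phiQ (F := F) (-1 * 2)) (phiQ (-1) + phiQ 5) ∈ cobTwo :=
    mem_cobTwo_of_eq (fun s t => by simp only [cup, sy, h3]) h
  rw [phiQ_mul (by norm_num) (by norm_num), cup_add_left, cup_add_right, cup_add_right] at h'
  have := Submodule.sub_mem _ h' (Submodule.add_mem _ (cob_le_cobTwo (sy_neg_one_five (F := F)))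
    (cob_le_cobTwo (sy_mem_of_symm (sy_neg_one_two (F := F)))))
  convert this using 1
  simp only [sy, base]
  abel

/-- **Local products.** -/
theorem cup_locVec (E V W E' V' W' : F) :
    cup (locVec F E V W) (locVec F E' V' W') - (E * E' + (V * W' + W * V')) • base F ∈ cobTwo := by
  have c1 := cob_le_cobTwo (sy_neg_one_two (F := F))
  have c2 := cob_le_cobTwo (sy_mem_of_symm (sy_neg_one_two (F := F)))
  have c3 := cob_le_cobTwo (sy_neg_one_five (F := F))
  have c4 := cob_le_cobTwo (sy_mem_of_symm (sy_neg_one_five (F := F)))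
  have c5 : sy (F := F) 2 2 ∈ cobTwo := cob_le_cobTwo (sy_self (x := 3 / 4) (y := 1 / 4)
    (by norm_num) (by norm_num) (by norm_num) (by norm_num) (sy_mem_of_symm sy_neg_one_two))
  have c6 : sy (F := F) 5 5 ∈ cobTwo := cob_le_cobTwo (sy_self (x := 3 / 5) (y := 2 / 5)
    (by norm_num) (by norm_num) (by norm_num) (by norm_num) (sy_mem_of_symm sy_neg_one_five))
  have c7 := sy_two_five (F := F)
  have c8 : sy (F := F) 5 2 + base F ∈ cobTwo := by
    have := Submodule.sub_mem _ (cob_le_cobTwo (sy_symm (F := F) 2 5)) c7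
    rwa [add_sub_add_left_eq_sub, sub_eq_add_neg, show -base F = base F from
      funext fun g => funext fun k => CharTwo.neg_eq _] at this
  have e : cup (locVec F E V W) (locVec F E' V' W') - (E * E' + (V * W' + W * V')) • base F =
      (E * V') • sy (-1) 2 + (V * E') • sy 2 (-1) + (E * W') • sy (-1) 5 + (W * E') • sy 5 (-1) +
        (V * V') • sy 2 2 + (W * W') • sy 5 5 + (V * W') • (sy 2 5 + base F) +
        (W * V') • (sy 5 2 + base F) := by
    funext g k
    simp only [cup, locVec, sy, base, Pi.add_apply, Pi.sub_apply, Pi.smul_apply, smul_eq_mul]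
    linear_combination (-(V * W' + W * V') * phiQ (F := F) (-1) g * phiQ (-1) k) *
      CharTwo.two_eq_zero (R := F)
  rw [e]
  exact Submodule.add_mem _ (Submodule.add_mem _ (Submodule.add_mem _ (Submodule.add_mem _
    (Submodule.add_mem _ (Submodule.add_mem _ (Submodule.add_mem _ (Submodule.smul_mem _ _ c1)
      (Submodule.smul_mem _ _ c2)) (Submodule.smul_mem _ _ c3)) (Submodule.smul_mem _ _ c4))
      (Submodule.smul_mem _ _ c5)) (Submodule.smul_mem _ _ c6)) (Submodule.smul_mem _ _ c7))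
    (Submodule.smul_mem _ _ c8)

/-! ### The square of the character of `-1` is not a coboundary -/

theorem no_sum_sq (x y : ℚ_[2]) : x ^ 2 + y ^ 2 ≠ -1 := by
  have core : ∀ a b : ℚ_[2], ‖a‖ ≤ 1 → ‖b‖ ≤ 1 → a ^ 2 + b ^ 2 + 1 ≠ 0 := fun a b ha hb h => by
    have h' := congrArg (PadicInt.toZModPow 2) (PadicInt.ext (by push_cast; exact h) :
      HAdd.hAdd (α := ℤ_[2]) (⟨a, ha⟩ ^ 2 + ⟨b, hb⟩ ^ 2) 1 = 0)
    simp only [map_add, map_pow, map_zero, map_one] at h'
    revert h'
    generalize PadicInt.toZModPow (p := 2) 2 _ = i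
    generalize PadicInt.toZModPow (p := 2) 2 _ = j
    revert i j
    decide
  have aux : ∀ x y : ℚ_[2], x ^ 2 + y ^ 2 = -1 → ‖y‖ ≤ ‖x‖ → False := fun x y h hle => by
    rcases le_or_gt ‖x‖ 1 with hx | hx
    · exact core x y hx (hle.trans hx) (by rw [h, neg_add_cancel])
    · have hx0 : x ≠ 0 := norm_pos_iff.1 (one_pos.trans hx)
      refine core (y / x) (1 / x) ?_ ?_ ?_
      · rw [norm_div]; exact div_le_one_of_le₀ hle (norm_nonneg x)
      · rw [norm_div, norm_one]; exact div_le_one_of_le₀ hx.le (norm_nonneg x)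
      · field_simp
        linear_combination h
  intro h
  rcases le_total ‖y‖ ‖x‖ with hle | hle
  exacts [aux x y h hle, aux y x (by rw [add_comm, h]) hle]

theorem base_notMem_cobTwo : base F ∉ cobTwo (F := F) := by
  classical
  letI := ZMod.algebra F 2
  rintro ⟨f, hf, hfe⟩
  obtain ⟨ℓ, hℓ⟩ : ∃ ℓ : F →ₗ[ZMod 2] ZMod 2, ℓ 1 = 1 := by
    obtain ⟨g, hg⟩ := LinearMap.exists_leftInverse_of_injective (Algebra.linearMap (ZMod 2) F)
      (LinearMap.ker_eq_bot.2 (algebraMap (ZMod 2) F).injective)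
    exact ⟨g, by simpa using LinearMap.congr_fun hg 1⟩
  haveI : IsGalois ℚ_[2] Q2bar := ⟨⟩
  set I := root (algebraMap ℚ QBar (-1)) with hIdef
  have hI2 : padicEmbedding 2 I ^ 2 = -1 := by rw [← map_pow, root_sq]; simp
  have hI0 : padicEmbedding 2 I ≠ 0 := fun h => by rw [h] at hI2; norm_num at hI2
  -- the character of order four
  let u : G2 → ZMod 2 := fun s => ℓ (phiQ (-1) (loc s))
  let c : G2 → ZMod 2 := fun s => ℓ (f (loc s))
  have hu01 : ∀ s, phiQ (F := F) (-1) (loc s) = 0 ∧ u s = 0 ∨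
      phiQ (F := F) (-1) (loc s) = 1 ∧ u s = 1 := by
    intro s
    simp only [u, phiQ, phi, flip]
    split_ifs <;> simp [hℓ]
  have hu : ∀ s t, u (s * t) = u s + u t := fun s t => by
    simp only [u, map_mul loc, phiQ_mul_apply, map_add]
  have hc : ∀ s t, u s * u t = c s + c t + c (s * t) := fun s t => by
    have e := congrArg ℓ (hfe s t)
    simp only [base, sy, cup, cobMap_apply, map_add, ← map_mul loc] at e
    rw [← e]
    rcases hu01 s with ⟨h1, h2⟩ | ⟨h1, h2⟩ <;> rcases hu01 t with ⟨h3, h4⟩ | ⟨h3, h4⟩ <;>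
      simp [h1, h2, h3, h4, hℓ]
  let χ : G2 → ZMod 4 := fun s => ((u s).val : ZMod 4) + 2 * ((c s).val : ZMod 4)
  have hχ : ∀ s t, χ (s * t) = χ s + χ t := by
    intro s t
    have key : ∀ a b p q r : ZMod 2, a * b = p + q + r →
        ((a + b).val : ZMod 4) + 2 * (r.val : ZMod 4) =
          ((a.val : ZMod 4) + 2 * (p.val : ZMod 4)) + ((b.val : ZMod 4) + 2 * (q.val : ZMod 4)) := by
      decide
    simp only [χ, hu]
    exact key _ _ _ _ _ (hc s t)
  have hχ1 : χ 1 = 0 := by have := hχ 1 1; rw [one_mul] at this; exact left_eq_add.1 this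
  have hχinv : ∀ s, χ s⁻¹ = -χ s := fun s => by
    have := hχ s s⁻¹; rw [mul_inv_cancel, hχ1] at this; exact eq_neg_of_add_eq_zero_right this.symm
  have fixed_mem : ∀ z : Q2bar, (∀ s : G2, s z = z) → ∃ r : ℚ_[2], algebraMap ℚ_[2] Q2bar r = z :=
    fun z hz => (InfiniteGalois.mem_range_algebraMap_iff_fixed z).2 hz
  -- an element moving `√-1`
  obtain ⟨σ, hσ⟩ : ∃ σ : G2, u σ = 1 := by
    by_contra hne
    push Not at hne
    obtain ⟨r, hr⟩ := fixed_mem (padicEmbedding 2 I) fun s => by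
      rw [← embed_loc]
      congr 1
      rcases hu01 s with ⟨h1, -⟩ | ⟨-, h2⟩
      · by_contra hm
        rw [show phiQ (F := F) (-1) (loc s) = flip I (loc s) from rfl, flip_eq_one hm] at h1
        exact one_ne_zero h1
      · exact absurd h2 (hne s)
    refine no_sum_sq r 0 ((algebraMap ℚ_[2] Q2bar).injective ?_)
    simp [hr, hI2]
  have hIs : ∀ s, s (padicEmbedding 2 I) =
      if u s = 0 then padicEmbedding 2 I else -padicEmbedding 2 I := by
    intro s
    rw [← embed_loc]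
    rcases hu01 s with ⟨h1, h2⟩ | ⟨h1, h2⟩
    · rw [if_pos h2]
      congr 1
      by_contra hm
      rw [show phiQ (F := F) (-1) (loc s) = flip I (loc s) from rfl, flip_eq_one hm] at h1
      exact one_ne_zero h1
    · rw [if_neg (by rw [h2]; decide)]
      rcases apply_eq_or_neg (root_sq _) ((loc s).commutes (-1 : ℚ)) with e | e
      · rw [show phiQ (F := F) (-1) (loc s) = flip I (loc s) from rfl, hIdef, flip_eq_zero e] at h1
        exact absurd h1 zero_ne_one
      · rw [hIdef, e, map_neg]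
  have hσ2 : χ (σ * σ) = 2 := by
    rw [hχ]
    have key : ∀ a b : ZMod 2, a = 1 → ((a.val : ZMod 4) + 2 * (b.val : ZMod 4)) +
        ((a.val : ZMod 4) + 2 * (b.val : ZMod 4)) = 2 := by decide
    exact key _ _ hσ
  -- the kernel and an element moved by `σ²`
  let K : Subgroup G2 :=
    { carrier := {s | χ s = 0}
      one_mem' := hχ1
      mul_mem' := fun {a b} (ha : χ a = 0) (hb : χ b = 0) => show χ (a * b) = 0 by
        rw [hχ, ha, hb, add_zero]
      inv_mem' := fun {a} (ha : χ a = 0) => show χ a⁻¹ = 0 by rw [hχinv, ha, neg_zero] }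
  have hopen : IsOpen (K : Set G2) := by
    obtain ⟨U, -, hUo, hUf⟩ := mem_finLvl.1 hf
    obtain ⟨E, hE, hEU⟩ := (krullTopology_mem_nhds_one_iff ℚ QBar _).1
      (hUo.mem_nhds U.one_mem)
    haveI := hE
    set E' := E ⊔ IntermediateField.adjoin ℚ {I}
    haveI : FiniteDimensional ℚ (IntermediateField.adjoin ℚ {I}) :=
      IntermediateField.adjoin.finiteDimensional (Algebra.IsIntegral.isIntegral I)
    haveI : FiniteDimensional ℚ E' := IntermediateField.finiteDimensional_sup _ _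
    refine Subgroup.isOpen_mono (fun s hs => ?_)
      (IntermediateField.fixingSubgroup_isOpen (CFT.Local.localField 2 E'))
    have hfix : ∀ x ∈ E', loc s x = x := fun x hx => (padicEmbedding 2).injective (by
      show padicEmbedding 2 _ = padicEmbedding 2 _
      rw [embed_loc]
      exact (IntermediateField.mem_fixingSubgroup_iff _ _).1 hs _
        (CFT.Local.padicEmbedding_mem_localField 2 E' ⟨x, hx⟩))
    have hlocU : loc s ∈ U := hEU ((IntermediateField.mem_fixingSubgroup_iff _ _).2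
      fun x hx => hfix x ((le_sup_left : E ≤ E') hx))
    have hu0 : u s = 0 := by
      have hI : loc s I = I := hfix I ((le_sup_right : IntermediateField.adjoin ℚ {I} ≤ E')
        (IntermediateField.mem_adjoin_simple_self ℚ I))
      show ℓ (flip I (loc s)) = 0
      rw [flip_eq_zero hI, map_zero]
    have hf1 : f (loc s) = f (loc 1) := by
      have := hUf (loc 1) (loc s) hlocU
      rwa [map_one, one_mul, ← map_one loc] at this
    have hu1 : u 1 = 0 := by
      have := hu 1 1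
      rwa [one_mul, left_eq_add] at this
    show χ s = 0
    rw [← hχ1]
    simp only [χ, c, hu0, hu1, hf1]
  obtain ⟨θ, hθ, hθσ⟩ : ∃ θ ∈ IntermediateField.fixedField K, (σ * σ) θ ≠ θ := by
    by_contra hno
    push Not at hno
    have : σ * σ ∈ K :=
      (SetLike.ext_iff.1 (InfiniteGalois.fixingSubgroup_fixedField
        (⟨K, K.isClosed_of_isOpen hopen⟩ : ClosedSubgroup G2)) _).1
        ((IntermediateField.mem_fixingSubgroup_iff _ _).2 hno)
    have h : χ (σ * σ) = 0 := this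
    rw [hσ2] at h
    exact absurd h (by decide)
  set ψ := θ - (σ * σ) θ with hψdef
  have hψ0 : ψ ≠ 0 := sub_ne_zero.2 (Ne.symm hθσ)
  have happ : ∀ s t : G2, χ s = χ t → s θ = t θ := by
    intro s t h
    have hm : t⁻¹ * s ∈ K := show χ (t⁻¹ * s) = 0 by rw [hχ, hχinv, h, neg_add_cancel]
    have := hθ ⟨_, hm⟩
    change (t⁻¹ * s) θ = θ at this
    conv_rhs => rw [← this, ← AlgEquiv.mul_apply, mul_inv_cancel_left]
  have hψs : ∀ s, (χ s = 0 → s ψ = ψ) ∧ (χ s = 2 → s ψ = -ψ) := by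
    intro s
    refine ⟨fun h => ?_, fun h => ?_⟩ <;> rw [hψdef, map_sub, ← AlgEquiv.mul_apply]
    · rw [happ s 1 (by rw [h, hχ1]), happ (s * (σ * σ)) (σ * σ) (by rw [hχ, h, zero_add])]
      rfl
    · rw [happ s (σ * σ) (by rw [h, hσ2]),
        happ (s * (σ * σ)) 1 (by rw [hχ, h, hσ2, hχ1]; decide), AlgEquiv.one_apply, neg_sub]
  set δ := σ ψ / ψ with hδdef
  have hσψ : σ (σ ψ) = -ψ := (hψs (σ * σ)).2 hσ2
  have hδs : ∀ s, u s = 0 → s δ = δ := by
    intro s hs
    have hc2 : χ s = 0 ∨ χ s = 2 := by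
      have key : ∀ a b : ZMod 2, a = 0 → ((a.val : ZMod 4) + 2 * (b.val : ZMod 4)) = 0 ∨
          ((a.val : ZMod 4) + 2 * (b.val : ZMod 4)) = 2 := by decide
      exact key _ _ hs
    have hconj : χ (σ⁻¹ * (s * σ)) = χ s := by rw [hχ, hχ, hχinv]; ring
    have e : s (σ ψ) = σ ((σ⁻¹ * (s * σ)) ψ) := by
      rw [← AlgEquiv.mul_apply, ← AlgEquiv.mul_apply, mul_inv_cancel_left]
    rcases hc2 with h | h
    · rw [hδdef, map_div₀, e, (hψs s).1 h, (hψs _).1 (hconj.trans h)]
    · rw [hδdef, map_div₀, e, (hψs s).2 h, (hψs _).2 (hconj.trans h), map_neg, neg_div_neg_eq]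
  have hnorm : σ δ * δ = -1 := by
    rw [hδdef, map_div₀, hσψ]
    have : σ ψ ≠ 0 := (map_ne_zero _).2 hψ0
    field_simp
  have hσσ : σ (σ δ) = δ := by
    rw [← AlgEquiv.mul_apply]
    exact hδs _ (by rw [hu, hσ]; decide)
  -- the two rational numbers
  set J := padicEmbedding 2 I
  have hJ : σ J = -J := by rw [hIs σ, if_neg (by rw [hσ]; decide)]
  have hfixall : ∀ z : Q2bar, σ z = z → (∀ s : G2, u s = 0 → s z = z) → ∀ s : G2, s z = z := by
    intro z h1 h2 s
    rcases (show u s = 0 ∨ u s = 1 from (show ∀ a : ZMod 2, a = 0 ∨ a = 1 by decide) _) with h | h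
    · exact h2 s h
    · have h3 : u (σ⁻¹ * s) = 0 := by
        have := hu σ (σ⁻¹ * s)
        rw [mul_inv_cancel_left, h, hσ] at this
        simpa using this
      have := congrArg σ (h2 _ h3)
      rwa [← AlgEquiv.mul_apply, mul_inv_cancel_left, h1] at this
  have hδσ : ∀ s, u s = 0 → s (σ δ) = σ δ := fun s hs => by
    have hsc : u (σ⁻¹ * (s * σ)) = 0 := by
      have h1 := hu σ (σ⁻¹ * (s * σ))
      rw [mul_inv_cancel_left, hu, hs, hσ, zero_add] at h1
      simpa using h1
    have := congrArg σ (hδs _ hsc)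
    rwa [← AlgEquiv.mul_apply, mul_inv_cancel_left, AlgEquiv.mul_apply] at this
  obtain ⟨x, hx⟩ := fixed_mem ((δ + σ δ) / 2) (hfixall _
    (by rw [map_div₀, map_add, hσσ, map_ofNat, add_comm])
    fun s hs => by
      rw [map_div₀, map_add, map_ofNat, hδs s hs, hδσ s hs])
  obtain ⟨y, hy⟩ := fixed_mem ((δ - σ δ) / (2 * J)) (hfixall _
    (by rw [map_div₀, map_sub, map_mul, hσσ, hJ, map_ofNat, mul_neg, div_neg, ← neg_div, neg_sub])
    fun s hs => by
      rw [map_div₀, map_sub, map_mul, map_ofNat, hδs s hs, hIs s, if_pos hs,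
        hδσ s hs])
  refine no_sum_sq x y ((algebraMap ℚ_[2] Q2bar).injective ?_)
  rw [map_add, map_pow, map_pow, hx, hy, map_neg, map_one, ← hnorm, div_pow, div_pow, mul_pow, hI2]
  field_simp
  ring

end Fermat.Agent.RT.Two.Recip

end
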